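import Fermat.Agent.MW.Modular.Descent
import Fermat.Agent.Hecke.Finite
import Fermat.Agent.ModularFunctionField.ModularPolynomial

/-!
# The modular curve as a curve with a basis of regular functions

`ModRing N` is the ring of functions of `X₀(N)` over `ℚ` regular outside the cusp `∞`, and
`J₀(N)(ℚ̄)` is equivariantly the class group of `ℚ̄ ⊗ ModRing N`.
-/

set_option autoImplicit false

noncomputable section

open AlgebraicCurve ModularCurve HahnSeries
open Fermat.Agent.FunctionField
open scoped TensorProduct

namespace Fermat.Agent.MW.Modular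

attribute [local instance 3000] seriesFieldAlgebra

variable (N : ℕ) [NeZero N]

theorem coeffEmb_rat (x : LaurentSeries ℚ) : coeffEmb ℚ x = x :=
  HahnSeries.ext (funext fun k => by rw [coeffEmb_coeff]; rfl)

instance isFunctionField_full : IsFunctionField ℚ (modularFunctionFieldFull N) := by
  refine Hecke.isFunctionField_adjoin (x := jq)
    (modularFunctionField_le_full N (jq_mem N)) ?_ (Hecke.finite_divisorExpansions N) rfl ?_
  · have h := Hecke.transcendental_jC ℚ
    rwa [Hecke.jC, coeffEmb_rat] at h
  · rintro x ⟨d, hd0, -, rfl⟩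
    have h := Hecke.isIntegral_coeffEmb_qExpand ℚ (ModularFunctionField.modularPolynomialData d)
    rwa [Hecke.jC, coeffEmb_rat, coeffEmb_rat] at h

instance isFunctionField_bar : IsFunctionField Qbar (BC (modularFunctionFieldFull N)) :=
  Hecke.isFunctionField_of_data Qbar N fun d _ => ⟨ModularFunctionField.modularPolynomialData d⟩

instance hasSimplePole_full : HasSimplePole (modularFunctionFieldFull N) := by
  refine ⟨⟨jq, modularFunctionField_le_full N (jq_mem N)⟩, ?_⟩
  have h1 := coeff_jq_neg_one
  have hne : jq ≠ 0 := fun e => by simp [e] at h1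
  refine le_antisymm (order_le_of_coeff_ne_zero (by rw [h1]; exact one_ne_zero))
    (le_of_not_gt fun hlt => ?_)
  exact HahnSeries.coeff_order_eq_zero.not.mpr hne (coeff_jq_of_lt hlt)

/-- The functions of `X₀(N)` over `ℚ` regular outside the cusp `∞`. -/
def ModRing : Type := regRing (modularFunctionFieldFull N)

instance : CommRing (ModRing N) :=
  inferInstanceAs (CommRing (regRing (modularFunctionFieldFull N)))

instance : Algebra ℚ (ModRing N) :=
  inferInstanceAs (Algebra ℚ (regRing (modularFunctionFieldFull N)))

instance : IsDedekindDomain (Qbar ⊗[ℚ] ModRing N) :=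
  isDedekindDomainBC (modularFunctionFieldFull N)

/-- The curve basis of `ModRing N`. -/
def curveBasisQ : CurveBasis ℚ (ModRing N) := curveBasis (modularFunctionFieldFull N)

/-- `J₀(N)(ℚ̄)` as a class group. -/
def jzeroEquiv : JZero N ≃+ Additive (ClassGroup (Qbar ⊗[ℚ] ModRing N)) :=
  pic0Equiv (modularFunctionFieldFull N)

/-- The comparison for `JZero N` is Galois equivariant. -/
theorem jzeroEquiv_smul (σ : GalQ) (z : JZero N) :
    jzeroEquiv N (σ • z) = σ • jzeroEquiv N z :=
  pic0Equiv_smul (modularFunctionFieldFull N) σ z

end Fermat.Agent.MW.Modular
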