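import Fermat.Agent.FunctionField.RiemannRoch
import Mathlib.RingTheory.DedekindDomain.IntegralClosure
import Mathlib.RingTheory.DedekindDomain.Dvr
import Mathlib.FieldTheory.IntermediateField.Adjoin.Algebra
import Mathlib.FieldTheory.Perfect
import Mathlib.RingTheory.Valuation.LocalSubring

/-!
# The ring of functions regular outside one place

For a function field `F` over `K` and a place `O`, a ring `A` with `RegularAway O A` is the ring
of functions regular outside `O`. It is a Dedekind domain with fraction field `F`, and its
nonzero primes are the places other than `O`.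
-/

set_option autoImplicit false

noncomputable section

open WithZero AlgebraicCurve IsDedekindDomain
open Fermat.Agent.FunctionField

namespace Fermat.Agent.MW.Modular

variable {K F A : Type*} [Field K] [Field F] [Algebra K F]
  [CommRing A] [Algebra K A] [Algebra A F] [IsScalarTower K A F]

/-- A place is determined by its valuation subring, including the normalisation. -/
theorem adicValuation_eq (v : Place K F) (w : Valuation F ℤᵐ⁰)
    (h : w.valuationSubring = v.toValuationSubring) (hw : ∃ g, w g = exp (-1 : ℤ)) (f : F) :
    v.adicValuation f = w f := by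
  rcases eq_or_ne f 0 with rfl | hf
  · simp
  have hmem : ∀ x : F, w x ≤ 1 ↔ v.adicValuation x ≤ 1 := fun x => by
    rw [← mem_iff_adicValuation_le_one v, ← h, Valuation.mem_valuationSubring_iff]
  obtain ⟨π, hπ⟩ := IsDiscreteValuationRing.exists_irreducible v.toValuationSubring
  have hπ0 : (π : F) ≠ 0 := by simpa using hπ.ne_zero
  have hunit : ∀ u : v.toValuationSubringˣ, w ((u : v.toValuationSubring) : F) = 1 := fun u => by
    refine le_antisymm ((hmem _).mpr (v.adicValuation_le_one_of_mem (u : v.toValuationSubring).2)) ?_
    have h2 := (hmem _).mpr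
      (v.adicValuation_le_one_of_mem ((u⁻¹ : v.toValuationSubringˣ) : v.toValuationSubring).2)
    have h3 : ((u : v.toValuationSubring) : F) * ((u⁻¹ : v.toValuationSubringˣ) : v.toValuationSubring)
        = 1 := congrArg Subtype.val u.mul_inv
    calc (1 : ℤᵐ⁰) = w ((u : v.toValuationSubring) : F) *
          w (((u⁻¹ : v.toValuationSubringˣ) : v.toValuationSubring) : F) := by
          rw [← map_mul, h3, map_one]
      _ ≤ _ := mul_le_of_le_one_right' h2
  have hk : w (π : F) = exp (-1 : ℤ) := by
    obtain ⟨g, hg⟩ := hw
    have hg0 : g ≠ 0 := fun h0 => by rw [h0, map_zero] at hg; exact exp_ne_zero hg.symm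
    obtain ⟨u, hu⟩ := v.exists_unit_mul_zpow hg0 hπ
    obtain ⟨d, hd⟩ : ∃ d : ℤ, w (π : F) = exp d :=
      ⟨_, (exp_log ((Valuation.ne_zero_iff _).mpr hπ0)).symm⟩
    rw [hu, map_mul, hunit, one_mul, map_zpow₀, hd, ← exp_zsmul, exp_inj, smul_eq_mul] at hg
    have hd1 : d ≤ 0 := by
      have := (hmem (π : F)).mpr (v.adicValuation_le_one_of_mem π.2)
      rwa [hd, ← exp_zero, exp_le_exp] at this
    rw [hd]
    congr 1
    rcases Int.eq_one_or_neg_one_of_mul_eq_neg_one (by rw [mul_comm]; exact hg : d * v.ord g = -1)
      with h1 | h1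
    · omega
    · exact h1
  obtain ⟨u, hu⟩ := v.exists_unit_mul_zpow hf hπ
  conv_rhs => rw [hu]
  rw [map_mul, hunit, one_mul, map_zpow₀, hk, ← exp_zsmul, v.adicValuation_eq_exp_neg_ord hf,
    smul_eq_mul, mul_neg, mul_one]

/-- `A` is the ring of functions regular outside `O`. -/
structure RegularAway (O : Place K F) (A : Type*) [CommRing A] [Algebra A F] : Prop where
  injective : Function.Injective (algebraMap A F)
  mem_range_iff : ∀ f : F,
    f ∈ Set.range (algebraMap A F) ↔ ∀ v : Place K F, v ≠ O → f ∈ v.toValuationSubring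

namespace RegularAway

variable {O : Place K F} (h : RegularAway O A)
include h

omit [Algebra K A] [IsScalarTower K A F] in
/-- The regular functions are integral at every other place. -/
theorem mem {v : Place K F} (hv : v ≠ O) (a : A) : algebraMap A F a ∈ v.toValuationSubring :=
  (h.mem_range_iff _).mp ⟨a, rfl⟩ v hv

omit [Algebra K A] [IsScalarTower K A F] in
/-- The regular functions have nonnegative order at every other place. -/
theorem ord_nonneg {v : Place K F} (hv : v ≠ O) (a : A) : 0 ≤ v.ord (algebraMap A F a) := by
  rcases ((v.adicValuation_le_one_iff).mp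
    (v.adicValuation_le_one_of_mem (h.mem hv a))) with h0 | h0
  · simp [h0]
  · exact h0

omit [Algebra K A] [IsScalarTower K A F] in
/-- The ring of regular functions is a domain. -/
theorem isDomain : IsDomain A := h.injective.isDomain

variable [IsFunctionField K F]

omit h in
theorem exists_ne_zero_mem_lspace (D : Divisor K F) (O : Place K F) :
    ∃ g : F, g ≠ 0 ∧ ∀ v : Place K F, v ≠ O → D v ≤ v.ord g := by
  classical
  set k : ℕ := (Divisor.degree D).natAbs + genusFF K F + 1
  have h1 := riemann_inequality (k • Finsupp.single O (1 : ℤ) - D)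
  have h2 := one_le_ell_zero (K := K) (F := F)
  have hdeg : Divisor.degree (k • Finsupp.single O (1 : ℤ) - D)
      = (k : ℤ) * O.deg - Divisor.degree D := by simp
  have h3 : (k : ℤ) ≤ (k : ℤ) * O.deg :=
    le_mul_of_one_le_right (by omega) (by exact_mod_cast deg_pos O)
  obtain ⟨g, hg, hg0⟩ := exists_ne_zero_mem_of_ell_pos
    (D := k • Finsupp.single O (1 : ℤ) - D) (by omega)
  refine ⟨g, hg0, fun v hv => ?_⟩
  have h4 := ((mem_riemannRochSpace_iff.mp hg) v).resolve_left hg0
  simp [Ne.symm hv] at h4
  omega

omit [Algebra K A] [IsScalarTower K A F] in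
/-- Every function is a quotient of regular functions. -/
theorem exists_mul_mem_range (f : F) :
    ∃ g : A, algebraMap A F g ≠ 0 ∧ f * algebraMap A F g ∈ Set.range (algebraMap A F) := by
  obtain ⟨g, hg0, hg⟩ := exists_ne_zero_mem_lspace (poleDiv K f) O
  have hgreg : ∀ v : Place K F, v ≠ O → g ∈ v.toValuationSubring := fun v hv =>
    (mem_iff_adicValuation_le_one v).mpr
      (v.adicValuation_le_one_iff.mpr (Or.inr ((Finsupp.le_def.mp (poleDiv_nonneg f) v).trans (hg v hv))))
  obtain ⟨a, rfl⟩ := (h.mem_range_iff g).mpr hgreg
  refine ⟨a, hg0, (h.mem_range_iff _).mpr fun v hv => ?_⟩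
  rw [mem_iff_adicValuation_le_one v, v.adicValuation_le_one_iff]
  rcases eq_or_ne f 0 with rfl | hf
  · exact Or.inl (zero_mul _)
  right
  rw [v.ord_mul hf hg0]
  have h1 := neg_ord_le_poleDiv (K := K) f v
  have h2 := hg v hv
  omega

omit [Algebra K A] [IsScalarTower K A F] in
/-- The function field is the fraction field of the regular functions. -/
theorem isFractionRing : IsFractionRing A F where
  map_units := by
    rintro ⟨y, hy⟩
    have := h.isDomain
    exact IsUnit.mk0 _ fun h0 =>
      nonZeroDivisors.ne_zero hy (h.injective (h0.trans (map_zero _).symm))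
  surj f := by
    have := h.isDomain
    obtain ⟨g, hg0, a, ha⟩ := h.exists_mul_mem_range f
    exact ⟨⟨a, g, mem_nonZeroDivisors_of_ne_zero fun h0 => hg0 (by rw [h0, map_zero])⟩, ha.symm⟩
  exists_of_eq hxy := ⟨1, by rw [h.injective hxy]⟩

omit [Algebra K A] [IsScalarTower K A F] in
/-- Some regular function is transcendental with a pole at the chosen place. -/
theorem exists_pole :
    ∃ x : A, O.ord (algebraMap A F x) < 0 ∧ Transcendental K (algebraMap A F x) := by
  obtain ⟨c, hc⟩ := exists_index_eq_zero (K := K) (F := F)
  classical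
  set k : ℕ := c.natAbs + genusFF K F + 2 * ell (0 : Divisor K F) + 1
  set D : Divisor K F := k • Finsupp.single O (1 : ℤ)
  have hdeg : Divisor.degree D = (k : ℤ) * O.deg := by simp [D]
  have h3 : (k : ℤ) ≤ (k : ℤ) * O.deg :=
    le_mul_of_one_le_right (by omega) (by exact_mod_cast deg_pos O)
  have h4 := ell_sub_index D
  rw [hc D (by omega)] at h4
  have hlt : ell (0 : Divisor K F) < ell D := by omega
  obtain ⟨f, hf, hf0⟩ : ∃ f ∈ riemannRochSpace D, f ∉ riemannRochSpace (0 : Divisor K F) := by
    by_contra! hc'
    exact hlt.not_ge (Submodule.finrank_mono hc')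
  rw [mem_riemannRochSpace_iff] at hf
  have hreg : ∀ v : Place K F, v ≠ O → f ∈ v.toValuationSubring := fun v hv => by
    rw [mem_iff_adicValuation_le_one v, v.adicValuation_le_one_iff]
    simpa [D, Ne.symm hv] using hf v
  have hO : O.ord f < 0 := by
    by_contra! hO
    refine hf0 (mem_riemannRochSpace_iff.mpr fun v => or_iff_not_imp_left.mpr fun hne => ?_)
    simp only [Finsupp.zero_apply, neg_zero]
    rcases eq_or_ne v O with rfl | hv
    · exact hO
    · exact (v.adicValuation_le_one_iff.mp (v.adicValuation_le_one_of_mem (hreg v hv))).resolve_left hne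
  obtain ⟨a, rfl⟩ := (h.mem_range_iff f).mpr hreg
  exact ⟨a, hO, transcendental_of_ord_ne_zero O hO.ne⟩

omit [Algebra K A] [IsScalarTower K A F] in
/-- The ring of regular functions is not a field. -/
theorem not_isField : ¬ IsField A := by
  intro hA
  obtain ⟨x, hx, htr⟩ := h.exists_pole
  obtain ⟨v, hv⟩ := exists_place_ord_pos htr
  have hvO : v ≠ O := fun e => by subst e; omega
  have := h.isDomain
  have hx0 : x ≠ 0 := fun e => transcendental_ne_zero htr (by rw [e, map_zero])
  obtain ⟨y, hy⟩ := hA.mul_inv_cancel hx0
  have h1 : algebraMap A F x * algebraMap A F y = 1 := by rw [← map_mul, hy, map_one]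
  have hy0 : algebraMap A F y ≠ 0 := fun e => by simp [e] at h1
  have h2 := congrArg v.ord h1
  rw [v.ord_mul (transcendental_ne_zero htr) hy0, v.ord_one] at h2
  have := h.ord_nonneg hvO y
  omega

omit h [IsFunctionField K F] in
theorem isPrincipalIdealRing_adjoin_singleton {x : F} :
    IsPrincipalIdealRing (Algebra.adjoin K {x}) := by
  rw [Algebra.adjoin_singleton_eq_range_aeval]
  exact IsPrincipalIdealRing.of_surjective (Polynomial.aeval x : Polynomial K →ₐ[K] F).rangeRestrict
    (Polynomial.aeval x : Polynomial K →ₐ[K] F).rangeRestrict_surjective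

open scoped IntermediateField.algebraAdjoinAdjoin in
omit [Algebra K A] [IsScalarTower K A F] in
/-- The ring of regular functions is a Dedekind domain. -/
theorem isDedekindDomain [PerfectField K] [CharZero K] : IsDedekindDomain A := by
  obtain ⟨x, hx, htr⟩ := h.exists_pole
  obtain ⟨t, ht⟩ : ∃ t : F, t = algebraMap A F x := ⟨_, rfl⟩
  rw [← ht] at hx htr
  have := IsFunctionField.finiteDimensional_adjoin t htr
  have : CharZero (IntermediateField.adjoin K {t}) :=
    charZero_of_injective_algebraMap (algebraMap K (IntermediateField.adjoin K {t})).injective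
  have := isPrincipalIdealRing_adjoin_singleton (K := K) (x := t)
  have hdd : IsDedekindDomain (integralClosure (Algebra.adjoin K {t}) F) :=
    integralClosure.isDedekindDomain (Algebra.adjoin K {t}) (IntermediateField.adjoin K {t}) F
  have hiff : ∀ f : F, f ∈ Set.range (algebraMap A F) ↔
      f ∈ integralClosure (Algebra.adjoin K {t}) F := by
    intro f
    rw [h.mem_range_iff]
    constructor
    · intro hf
      by_contra hni
      have : IsIntegrallyClosedIn (integralClosure (Algebra.adjoin K {t}) F).toSubring F :=
        inferInstanceAs (IsIntegrallyClosedIn (integralClosure (Algebra.adjoin K {t}) F) F)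
      obtain ⟨V, hV, hfV⟩ := Subring.exists_le_valuationSubring_of_isIntegrallyClosedIn
        (R := (integralClosure (Algebra.adjoin K {t}) F).toSubring) hni
      have hbase : ∀ r : Algebra.adjoin K {t}, (r : F) ∈ V := fun r =>
        hV (show (r : F) ∈ integralClosure (Algebra.adjoin K {t}) F from isIntegral_algebraMap)
      have hK : ∀ c : K, algebraMap K F c ∈ V := fun c =>
        hbase ⟨algebraMap K F c, Subalgebra.algebraMap_mem _ c⟩
      have hVtop : V ≠ ⊤ := fun e => hfV (e ▸ ValuationSubring.mem_top f)
      set w := placeOfValuationSubring V hK hVtop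
      have hwO : w ≠ O := fun e => by
        have h1 : t ∈ w.toValuationSubring := hbase ⟨t, Algebra.self_mem_adjoin_singleton K t⟩
        rw [e, mem_iff_adicValuation_le_one O, O.adicValuation_le_one_iff,
          or_iff_right (transcendental_ne_zero htr)] at h1
        omega
      exact hfV (hf w hwO)
    · rintro ⟨p, hp, hpf⟩ v hv
      have hle : ∀ r : Algebra.adjoin K {t}, (r : F) ∈ v.toValuationSubring.valuation.integer := by
        rintro ⟨r, hr⟩
        refine (v.toValuationSubring.valuation_le_one_iff r).mpr ?_
        induction hr using Algebra.adjoin_induction with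
        | mem y hy => rw [Set.mem_singleton_iff.mp hy, ht]; exact h.mem hv x
        | algebraMap c => exact v.algebraMap_mem' c
        | add a b _ _ ha hb => exact add_mem ha hb
        | mul a b _ _ ha hb => exact mul_mem ha hb
      have hint : IsIntegral v.toValuationSubring.valuation.integer f := by
        refine ⟨p.map ((algebraMap (Algebra.adjoin K {t}) F).codRestrict _ hle), hp.map _, ?_⟩
        rw [Polynomial.eval₂_map]
        exact hpf
      exact (v.toValuationSubring.valuation_le_one_iff f).mp
        ((Valuation.integer.integers v.toValuationSubring.valuation).mem_of_integral hint)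
  let φ : A →+* integralClosure (Algebra.adjoin K {t}) F :=
    (algebraMap A F).codRestrict (integralClosure (Algebra.adjoin K {t}) F).toSubring
      fun a => (hiff _).mp ⟨a, rfl⟩
  have hφ : Function.Bijective φ := by
    refine ⟨fun a b e => h.injective (congrArg Subtype.val e), fun y => ?_⟩
    obtain ⟨a, ha⟩ := (hiff y.1).mpr y.2
    exact ⟨a, Subtype.ext ha⟩
  have := h.isDomain
  let e := (RingEquiv.ofBijective φ hφ).symm
  let : Algebra (integralClosure (Algebra.adjoin K {t}) F) A := e.toRingHom.toAlgebra
  have : IsLocalization (⊥ : Submonoid (integralClosure (Algebra.adjoin K {t}) F)) A :=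
    { map_units := by
        rintro ⟨y, hy⟩
        simp [Submonoid.mem_bot.mp hy]
      surj := fun z => ⟨⟨e.symm z, 1⟩, by
        show z * e 1 = e (e.symm z)
        simp⟩
      exists_of_eq := fun hxy => ⟨1, by rw [e.injective hxy]⟩ }
  exact IsLocalization.isDedekindDomain (integralClosure (Algebra.adjoin K {t}) F) bot_le A

/-- The prime of the functions vanishing at `v`. -/
def ideal {v : Place K F} (hv : v ≠ O) : Ideal A where
  carrier := {a | v.adicValuation (algebraMap A F a) < 1}
  zero_mem' := by simp
  add_mem' {a b} (ha : v.adicValuation (algebraMap A F a) < 1)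
      (hb : v.adicValuation (algebraMap A F b) < 1) := by
    show v.adicValuation (algebraMap A F (a + b)) < 1
    rw [map_add]
    exact (Valuation.map_add _ _ _).trans_lt (max_lt ha hb)
  smul_mem' c a ha := by
    show v.adicValuation (algebraMap A F (c * a)) < 1
    rw [map_mul, map_mul]
    exact lt_of_le_of_lt (mul_le_of_le_one_left' (v.adicValuation_le_one_of_mem (h.mem hv c))) ha

omit [IsFunctionField K F] in
omit [Algebra K A] [IsScalarTower K A F] in
/-- Membership in the ideal of a place. -/
theorem mem_ideal {v : Place K F} (hv : v ≠ O) {a : A} :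
    a ∈ h.ideal hv ↔ v.adicValuation (algebraMap A F a) < 1 := Iff.rfl

omit [IsFunctionField K F] [Algebra K A] [IsScalarTower K A F] in
/-- The ideal of a place is prime. -/
theorem ideal_isPrime {v : Place K F} (hv : v ≠ O) : (h.ideal hv).IsPrime := by
  refine ⟨fun e => ?_, fun {a b} hab => ?_⟩
  · have : (1 : A) ∈ h.ideal hv := e ▸ Submodule.mem_top
    simp [mem_ideal] at this
  · simp only [mem_ideal, map_mul] at hab ⊢
    by_contra! hc
    have h1 := le_antisymm (v.adicValuation_le_one_of_mem (h.mem hv a)) hc.1
    have h2 := le_antisymm (v.adicValuation_le_one_of_mem (h.mem hv b)) hc.2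
    rw [h1, h2, one_mul] at hab
    exact lt_irrefl _ hab

omit [Algebra K A] [IsScalarTower K A F] in
theorem ideal_ne_bot {v : Place K F} (hv : v ≠ O) : h.ideal hv ≠ ⊥ := by
  have := h.isFractionRing
  have := h.isDomain
  intro e
  obtain ⟨t, ht, hval⟩ := exists_adicValuation_eq v (-1)
  obtain ⟨a, b, hb, hab⟩ := IsFractionRing.div_surjective (A := A) t
  have ha : a ∈ h.ideal hv := by
    have hb0 : algebraMap A F b ≠ 0 := fun e0 =>
      nonZeroDivisors.ne_zero hb (h.injective (e0.trans (map_zero _).symm))
    have : algebraMap A F a = t * algebraMap A F b := by rw [← hab, div_mul_cancel₀ _ hb0]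
    rw [mem_ideal, this, map_mul, hval]
    refine lt_of_le_of_lt (mul_le_of_le_one_right' (v.adicValuation_le_one_of_mem (h.mem hv b))) ?_
    rw [← exp_zero, exp_lt_exp]; omega
  rw [e, Submodule.mem_bot] at ha
  exact ht (by rw [← hab, ha, map_zero, zero_div])

/-- The nonzero prime attached to a place other than `O`. -/
def prime {v : Place K F} (hv : v ≠ O) : HeightOneSpectrum A :=
  ⟨h.ideal hv, h.ideal_isPrime hv, h.ideal_ne_bot hv⟩

omit [Algebra K A] [IsScalarTower K A F] in
/-- The ideal underlying the prime of a place. -/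
@[simp]
theorem prime_asIdeal {v : Place K F} (hv : v ≠ O) : (h.prime hv).asIdeal = h.ideal hv := rfl

theorem valuation_prime [IsFractionRing A F] [IsDedekindDomain A] {v : Place K F} (hv : v ≠ O)
    (f : F) : (h.prime hv).valuation F f = v.adicValuation f := by
  set w := Place.ofHeightOneSpectrum (K := K) (F := F) (h.prime hv)
  have hle : w.toValuationSubring ≤ v.toValuationSubring := by
    rw [Place.ofHeightOneSpectrum_toValuationSubring,
      ← HeightOneSpectrum.valuationSubringAtPrime_eq_valuationSubring (K := F) (h.prime hv)]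
    rintro x ⟨a, s, hs, rfl⟩
    rw [mem_iff_adicValuation_le_one v, map_mul, map_inv₀]
    have h1 : v.adicValuation (algebraMap A F s) = 1 :=
      le_antisymm (v.adicValuation_le_one_of_mem (h.mem hv s)) (not_lt.mp fun hlt => hs hlt)
    rw [h1, inv_one, mul_one]
    exact v.adicValuation_le_one_of_mem (h.mem hv a)
  have he : w = v := eq_of_le hle
  symm
  exact adicValuation_eq v _ (congrArg Place.toValuationSubring he)
    ((h.prime hv).valuation_exists_uniformizer F) f

/-- Distinct places give distinct primes. -/
theorem prime_injective [IsFractionRing A F] [IsDedekindDomain A] {v w : Place K F} (hv : v ≠ O)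
    (hw : w ≠ O) (e : h.prime hv = h.prime hw) : v = w := by
  refine eq_of_le fun x hx => ?_
  rw [mem_iff_adicValuation_le_one] at hx ⊢
  rwa [← h.valuation_prime hw, ← e, h.valuation_prime hv]

/-- Every prime comes from a place. -/
theorem exists_prime_eq [IsFractionRing A F] [IsDedekindDomain A] (P : HeightOneSpectrum A) :
    ∃ (v : Place K F) (hv : v ≠ O), h.prime hv = P := by
  set w := Place.ofHeightOneSpectrum (K := K) (F := F) P
  obtain ⟨x, hx, htr⟩ := h.exists_pole
  have hwO : w ≠ O := fun e => by
    have hxw : algebraMap A F x ∈ w.toValuationSubring := P.valuation_le_one x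
    rw [e, mem_iff_adicValuation_le_one O, O.adicValuation_le_one_iff,
      or_iff_right (transcendental_ne_zero htr)] at hxw
    omega
  refine ⟨w, hwO, HeightOneSpectrum.ext ?_⟩
  ext a
  rw [prime_asIdeal, mem_ideal, ← P.valuation_lt_one_iff_mem (K := F) a,
    adicValuation_eq w (P.valuation F) rfl (P.valuation_exists_uniformizer F)]

/-- Powers of the prime of a place are cut out by the order. -/
theorem le_pow_iff [IsFractionRing A F] [IsDedekindDomain A] {v : Place K F} (hv : v ≠ O)
    {a : A} (ha : a ≠ 0) (n : ℕ) :
    a ∈ (h.ideal hv) ^ n ↔ (n : ℤ) ≤ v.ord (algebraMap A F a) := by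
  have ha' : algebraMap A F a ≠ 0 := fun e => ha (h.injective (e.trans (map_zero _).symm))
  rw [← h.prime_asIdeal hv, ← HeightOneSpectrum.intValuation_le_pow_iff_mem,
    ← HeightOneSpectrum.valuation_of_algebraMap (K := F), h.valuation_prime hv,
    v.adicValuation_eq_exp_neg_ord ha', exp_le_exp, neg_le_neg_iff]

end RegularAway

end Fermat.Agent.MW.Modular
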