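import Fermat.Agent.MW.Core.Defs
import Fermat.Agent.MW.Modular.Holomorphy
import Fermat.Prelude.Def_AlgebraicCurve_BaseChangeGalois
import Mathlib.RingTheory.DedekindDomain.Ideal.Lemmas
import Mathlib.Data.Finsupp.Multiset

/-!
# Degree-zero divisor classes are ideal classes

For the ring of functions regular outside `O` the map `∑ (P - O)` identifies degree-zero divisor
classes with ideal classes, equivariantly for semilinear automorphisms fixing `O`.
-/

set_option autoImplicit false

noncomputable section

open WithZero AlgebraicCurve IsDedekindDomain UniqueFactorizationMonoid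
open Fermat.Agent.FunctionField
open scoped nonZeroDivisors

namespace Fermat.Agent.MW.Modular

variable {K F A : Type} [Field K] [IsAlgClosed K] [Field F] [Algebra K F] [IsFunctionField K F]
  [CommRing A] [Algebra K A] [Algebra A F] [IsScalarTower K A F]

/-- The residue at a place of degree one. -/
def residueHom (v : Place K F) : v.toValuationSubring →ₐ[K] v.ResidueField :=
  { IsLocalRing.residue v.toValuationSubring with commutes' := fun _ => rfl }

theorem algebraMap_residueField_bijective (v : Place K F) :
    Function.Bijective (algebraMap K v.ResidueField) := by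
  have : Algebra.IsIntegral K v.ResidueField := Algebra.IsIntegral.of_finite K v.ResidueField
  exact IsAlgClosed.algebraMap_bijective_of_isIntegral

/-- The value at `v` of a function regular at `v`. -/
def evalAt (v : Place K F) : v.toValuationSubring →ₐ[K] K :=
  ((AlgEquiv.ofBijective (Algebra.ofId K v.ResidueField)
    (algebraMap_residueField_bijective v)).symm.toAlgHom).comp (residueHom v)

theorem evalAt_eq_zero_iff (v : Place K F) (x : v.toValuationSubring) :
    evalAt v x = 0 ↔ v.adicValuation (x : F) < 1 := by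
  show (AlgEquiv.ofBijective (Algebra.ofId K v.ResidueField)
    (algebraMap_residueField_bijective v)).symm (IsLocalRing.residue _ x) = 0 ↔ _
  rw [map_eq_zero_iff _ (AlgEquiv.injective _), IsLocalRing.residue_eq_zero_iff,
    IsLocalRing.mem_maximalIdeal, mem_nonunits_iff, ← v.adicValuation_coe_eq_one_iff]
  exact ⟨fun h => lt_of_le_of_ne (v.adicValuation_le_one_of_mem x.2) h, fun h => h.ne⟩

omit [IsAlgClosed K] in
theorem algHom_eq_of_ker_le {φ ψ : A →ₐ[K] K} (h : ptIdeal φ ≤ ptIdeal ψ) : φ = ψ := by
  refine AlgHom.ext fun a => ?_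
  have h1 : a - algebraMap K A (φ a) ∈ ptIdeal φ := by
    simp [ptIdeal]
  have h2 : ψ (a - algebraMap K A (φ a)) = 0 := h h1
  rw [map_sub, ψ.commutes, sub_eq_zero] at h2
  exact h2.symm

omit [IsAlgClosed K] in
/-- A maximal ideal with residue field `K`. -/
theorem ptIdeal_isMaximal (φ : A →ₐ[K] K) : (ptIdeal φ).IsMaximal :=
  RingHom.ker_isMaximal_of_surjective _ fun c => ⟨algebraMap K A c, φ.commutes c⟩

/-- The finite part of a divisor given by points, as an ideal. -/
def ptsIdeal (E : Multiset (Pt K A)) : Ideal A := ((E.filterMap id).map ptIdeal).prod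

omit [IsAlgClosed K] in
theorem pt_injective_ideal : Function.Injective (ptIdeal : (A →ₐ[K] K) → Ideal A) :=
  fun _ _ h => algHom_eq_of_ker_le h.le

namespace RegularAway

variable {O : Place K F} (h : RegularAway O A)
include h

/-- Evaluation of regular functions at a place other than `O`. -/
def ev {v : Place K F} (hv : v ≠ O) : A →ₐ[K] K :=
  (evalAt v).comp
    { toFun := fun a => ⟨algebraMap A F a, h.mem hv a⟩
      map_one' := Subtype.ext (map_one _)
      map_mul' := fun a b => Subtype.ext (map_mul _ a b)
      map_zero' := Subtype.ext (map_zero _)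
      map_add' := fun a b => Subtype.ext (map_add _ a b)
      commutes' := fun c => Subtype.ext (IsScalarTower.algebraMap_apply K A F c).symm }

/-- A function vanishes at a place exactly when its valuation there is less than `1`. -/
theorem ev_eq_zero_iff {v : Place K F} (hv : v ≠ O) (a : A) :
    h.ev hv a = 0 ↔ v.adicValuation (algebraMap A F a) < 1 :=
  evalAt_eq_zero_iff v _

theorem ptIdeal_ev {v : Place K F} (hv : v ≠ O) : ptIdeal (h.ev hv) = h.ideal hv :=
  Ideal.ext fun a => h.ev_eq_zero_iff hv a

theorem ev_eq_iff {v : Place K F} (hv : v ≠ O) (a : A) (c : K) :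
    h.ev hv a = c ↔ v.adicValuation (algebraMap A F a - algebraMap K F c) < 1 := by
  rw [← sub_eq_zero, IsScalarTower.algebraMap_apply K A F c, ← map_sub, ← h.ev_eq_zero_iff hv,
    map_sub, AlgHom.commutes]
  rfl

/-- The point of a place. -/
def ptOf (v : Place K F) : Pt K A := by
  classical exact if hv : v = O then none else some (h.ev hv)

@[simp]
theorem ptOf_self : h.ptOf O = none := by
  classical exact dif_pos rfl

theorem ptOf_of_ne {v : Place K F} (hv : v ≠ O) : h.ptOf v = some (h.ev hv) := by
  classical exact dif_neg hv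

variable [IsFractionRing A F] [IsDedekindDomain A]

omit [IsFractionRing A F] [IsDedekindDomain A] [IsAlgClosed K] [IsScalarTower K A F] in
/-- The ideal of a point is nonzero. -/
theorem ptIdeal_ne_bot (φ : A →ₐ[K] K) : ptIdeal φ ≠ ⊥ := by
  intro e
  have hmax := ptIdeal_isMaximal φ
  rw [e] at hmax
  have := h.isDomain
  obtain ⟨I, h1, h2⟩ := Ring.not_isField_iff_exists_ideal_bot_lt_and_lt_top.mp h.not_isField
  exact h1.ne (hmax.eq_of_le h2.ne bot_le)

theorem exists_ev_eq (φ : A →ₐ[K] K) : ∃ (v : Place K F) (hv : v ≠ O), h.ev hv = φ := by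
  obtain ⟨v, hv, e⟩ := h.exists_prime_eq
    ⟨ptIdeal φ, (ptIdeal_isMaximal φ).isPrime, h.ptIdeal_ne_bot φ⟩
  refine ⟨v, hv, algHom_eq_of_ker_le ?_⟩
  rw [h.ptIdeal_ev hv, ← h.prime_asIdeal hv, e]

theorem ptOf_bijective : Function.Bijective h.ptOf := by
  refine ⟨fun v w e => ?_, fun P => ?_⟩
  · by_cases hv : v = O
    · by_cases hw : w = O
      · rw [hv, hw]
      · rw [hv, ptOf_self, h.ptOf_of_ne hw] at e
        exact absurd e.symm (Option.some_ne_none _)
    · by_cases hw : w = O
      · rw [hw, ptOf_self, h.ptOf_of_ne hv] at e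
        exact absurd e (Option.some_ne_none _)
      · rw [h.ptOf_of_ne hv, h.ptOf_of_ne hw, Option.some_inj] at e
        refine h.prime_injective hv hw (HeightOneSpectrum.ext ?_)
        rw [prime_asIdeal, prime_asIdeal, ← h.ptIdeal_ev hv, e, h.ptIdeal_ev hw]
  · rcases P with _ | φ
    · exact ⟨O, h.ptOf_self⟩
    · obtain ⟨v, hv, rfl⟩ := h.exists_ev_eq φ
      exact ⟨v, h.ptOf_of_ne hv⟩

/-- Places correspond to points. -/
def ptEquiv : Place K F ≃ Pt K A := Equiv.ofBijective h.ptOf h.ptOf_bijective

omit [IsFractionRing A F] [IsAlgClosed K] [IsScalarTower K A F] in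
theorem ptsIdeal_mem (E : Multiset (Pt K A)) : ptsIdeal E ∈ (Ideal A)⁰ := by
  refine mem_nonZeroDivisors_of_ne_zero (Multiset.prod_ne_zero fun hmem => ?_)
  obtain ⟨φ, -, e⟩ := Multiset.mem_map.mp hmem
  exact h.ptIdeal_ne_bot φ e

omit [IsFractionRing A F] [IsAlgClosed K] [IsScalarTower K A F] in
theorem cl_eq_mk0 (E : Multiset (Pt K A)) :
    cl E = Additive.ofMul (ClassGroup.mk0 ⟨ptsIdeal E, h.ptsIdeal_mem E⟩) := by
  induction E using Multiset.induction_on with
  | empty =>
      have : (⟨ptsIdeal (0 : Multiset (Pt K A)), h.ptsIdeal_mem 0⟩ : (Ideal A)⁰) = 1 :=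
        Subtype.ext (by simp [ptsIdeal])
      rw [this, map_one]
      simp [cl]
  | cons P E ih =>
      have hadd : cl (P ::ₘ E) = pcl P + cl E := by simp [cl]
      rw [hadd, ih]
      rcases P with _ | φ
      · have : ptsIdeal (none ::ₘ E) = ptsIdeal E := by simp [ptsIdeal]
        simp [pcl, this]
      · have hm : ptIdeal φ ∈ (Ideal A)⁰ := mem_nonZeroDivisors_of_ne_zero (h.ptIdeal_ne_bot φ)
        have : (⟨ptsIdeal (some φ ::ₘ E), h.ptsIdeal_mem _⟩ : (Ideal A)⁰)
            = ⟨ptIdeal φ, hm⟩ * ⟨ptsIdeal E, h.ptsIdeal_mem E⟩ :=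
          Subtype.ext (by simp [ptsIdeal])
        rw [this, map_mul, ofMul_mul]
        simp [pcl, hm]

omit [IsFractionRing A F] [IsAlgClosed K] [IsScalarTower K A F] in
theorem normalizedFactors_ptsIdeal (E : Multiset (Pt K A)) :
    normalizedFactors (ptsIdeal E) = (E.filterMap id).map ptIdeal := by
  refine normalizedFactors_prod_of_prime fun p hp => ?_
  obtain ⟨φ, -, rfl⟩ := Multiset.mem_map.mp hp
  exact Ideal.prime_of_isPrime (h.ptIdeal_ne_bot φ) (ptIdeal_isMaximal φ).isPrime

omit [IsFractionRing A F] in
theorem count_normalizedFactors_ptsIdeal (E : Multiset (Pt K A)) {v : Place K F} (hv : v ≠ O) :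
    open scoped Classical in
    (normalizedFactors (ptsIdeal E)).count (h.ideal hv) = E.count (h.ptOf v) := by
  classical
  rw [h.normalizedFactors_ptsIdeal, ← h.ptIdeal_ev hv, h.ptOf_of_ne hv,
    Multiset.count_map_eq_count' _ _ pt_injective_ideal]
  induction E using Multiset.induction_on with
  | empty => simp
  | cons P E ih => rcases P with _ | φ <;> simp [Multiset.count_cons, ih]

omit [IsAlgClosed K] in
theorem count_normalizedFactors_span {a : A} (ha : a ≠ 0) {v : Place K F} (hv : v ≠ O) :
    open scoped Classical in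
    ((normalizedFactors (Ideal.span {a})).count (h.ideal hv) : ℤ) = v.ord (algebraMap A F a) := by
  classical
  have := h.ideal_isPrime hv
  have h0 := h.ord_nonneg hv a
  rw [Ideal.count_normalizedFactors_eq (n := (v.ord (algebraMap A F a)).toNat)]
  · exact Int.toNat_of_nonneg h0
  · rw [Ideal.span_singleton_le_iff_mem, h.le_pow_iff hv ha]
    omega
  · rw [Ideal.span_singleton_le_iff_mem, h.le_pow_iff hv ha]
    omega

/-- The class of a divisor. -/
def divClass : Divisor K F →+ Additive (ClassGroup A) :=
  Finsupp.liftAddHom fun v => (smulAddHom ℤ (Additive (ClassGroup A))).flip (pcl (h.ptOf v))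

omit [IsFractionRing A F] in
theorem divClass_single (v : Place K F) (n : ℤ) :
    h.divClass (Finsupp.single v n) = n • pcl (h.ptOf v) := by
  simp [divClass]

/-- The divisor `∑ (P - O)`. -/
def divOf (E : Multiset (Pt K A)) : Divisor K F :=
  (E.map fun P => (Finsupp.single (h.ptEquiv.symm P) (1 : ℤ) - Finsupp.single O (1 : ℤ) : Divisor K F)).sum

theorem divClass_divOf (E : Multiset (Pt K A)) : h.divClass (h.divOf E) = cl E := by
  induction E using Multiset.induction_on with
  | empty => simp [divOf, cl]
  | cons P E ih =>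
      have h1 : h.divOf (P ::ₘ E)
          = (Finsupp.single (h.ptEquiv.symm P) (1 : ℤ) - Finsupp.single O (1 : ℤ)) + h.divOf E := by
        simp [divOf]
      have h2 : h.ptOf (h.ptEquiv.symm P) = P := h.ptEquiv.apply_symm_apply P
      rw [h1, map_add, map_sub, divClass_single, divClass_single, ih, h2, ptOf_self]
      simp [cl, pcl]

theorem divOf_mem_degZero (E : Multiset (Pt K A)) :
    h.divOf E ∈ Divisor.degZero (K := K) (F := F) := by
  refine AddSubgroup.multiset_sum_mem _ _ fun D hD => ?_
  obtain ⟨P, -, rfl⟩ := Multiset.mem_map.mp hD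
  rw [Divisor.mem_degZero, map_sub, Divisor.degree_single, Divisor.degree_single, FunctionField.deg_eq_one,
    FunctionField.deg_eq_one, sub_self]

omit [IsFractionRing A F] in
theorem divClass_natCast (P : Place K F →₀ ℕ) :
    h.divClass (P.mapRange Nat.cast Nat.cast_zero) = cl (P.toMultiset.map h.ptOf) := by
  induction P using Finsupp.induction with
  | zero => simp [cl]
  | single_add v n P _ _ ih =>
      rw [Finsupp.mapRange_add (by simp), map_add, Finsupp.mapRange_single, divClass_single, ih,
        map_add, Finsupp.toMultiset_single, Multiset.map_add, Multiset.map_nsmul]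
      simp [cl, Multiset.map_nsmul, Multiset.sum_nsmul]

theorem count_map_toMultiset (P : Place K F →₀ ℕ) (v : Place K F) :
    open scoped Classical in
    (P.toMultiset.map h.ptOf).count (h.ptOf v) = P v := by
  classical
  rw [Multiset.count_map_eq_count' _ _ h.ptOf_bijective.1, Finsupp.count_toMultiset]

theorem divClass_divFun_of_mem {a : A} (ha : a ≠ 0) :
    h.divClass (divFun K (algebraMap A F a)) = 0 := by
  classical
  set P : Place K F →₀ ℕ := (divFun K (algebraMap A F a)).mapRange Int.toNat rfl
  have hD : divFun K (algebraMap A F a) = P.mapRange Nat.cast Nat.cast_zero +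
      Finsupp.single O (min (O.ord (algebraMap A F a)) 0) := by
    ext v
    simp only [P, Finsupp.add_apply, Finsupp.mapRange_apply, divFun_apply, Finsupp.single_apply]
    by_cases hv : O = v
    · subst hv; simp only [if_true]; omega
    · have := h.ord_nonneg (Ne.symm hv) a
      rw [if_neg hv]; omega
  rw [hD, map_add, divClass_single, ptOf_self, h.divClass_natCast, h.cl_eq_mk0]
  have hspan : ptsIdeal (P.toMultiset.map h.ptOf) = Ideal.span {a} := by
    have hne : Ideal.span {a} ≠ ⊥ := by simpa using ha
    have hne' := nonZeroDivisors.ne_zero (h.ptsIdeal_mem (P.toMultiset.map h.ptOf))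
    rw [← Ideal.prod_normalizedFactors_eq_self hne', ← Ideal.prod_normalizedFactors_eq_self hne]
    congr 1
    ext p
    by_cases hp : p.IsPrime ∧ p ≠ ⊥
    · obtain ⟨v, hv, e⟩ := h.exists_prime_eq ⟨p, hp.1, hp.2⟩
      obtain rfl : h.ideal hv = p := congrArg HeightOneSpectrum.asIdeal e
      have h1 := h.count_normalizedFactors_span ha hv
      rw [h.count_normalizedFactors_ptsIdeal _ hv, h.count_map_toMultiset]
      simp only [P, Finsupp.mapRange_apply, divFun_apply]
      omega
    · have hnot : ∀ I : Ideal A, p ∉ normalizedFactors I := fun I hm => by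
        have hprime := prime_of_normalized_factor p hm
        exact hp ⟨Ideal.isPrime_of_prime hprime, hprime.ne_zero⟩
      rw [Multiset.count_eq_zero_of_notMem (hnot _), Multiset.count_eq_zero_of_notMem (hnot _)]
  have h1 : ClassGroup.mk0 ⟨ptsIdeal (P.toMultiset.map h.ptOf), h.ptsIdeal_mem _⟩ = 1 := by
    rw [ClassGroup.mk0_eq_one_iff]
    exact ⟨⟨a, hspan⟩⟩
  rw [h1]
  simp [pcl]

omit [IsAlgClosed K] [CommRing A] [Algebra K A] [Algebra A F] [IsScalarTower K A F] h
    [IsFractionRing A F] [IsDedekindDomain A] in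
theorem divFun_mul {f g : F} (hf : f ≠ 0) (hg : g ≠ 0) :
    divFun K (f * g) = divFun K f + divFun K g := by
  ext v; simp [v.ord_mul hf hg]

theorem divClass_divFun {f : F} (hf : f ≠ 0) : h.divClass (divFun K f) = 0 := by
  obtain ⟨g, hg, a, ha⟩ := h.exists_mul_mem_range f
  have ha0 : a ≠ 0 := fun e => mul_ne_zero hf hg (by rw [← ha, e, map_zero])
  have hg0 : g ≠ 0 := fun e => hg (by rw [e, map_zero])
  have := h.divClass_divFun_of_mem ha0
  rwa [ha, divFun_mul hf hg, map_add, h.divClass_divFun_of_mem hg0, add_zero] at this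

/-- Degree-zero divisor classes to ideal classes. -/
def classHom : Pic0 K F →+ Additive (ClassGroup A) :=
  QuotientAddGroup.lift _ (h.divClass.comp (Divisor.degZero (K := K) (F := F)).subtype) (by
    rintro ⟨D, hD0⟩ hD
    obtain ⟨f, hf, hD⟩ := AddSubgroup.mem_addSubgroupOf.mp hD
    have : D = divFun K f := Finsupp.ext hD
    show h.divClass D = 0
    rw [this, h.divClass_divFun hf])

theorem classHom_mk (D : Divisor.degZero (K := K) (F := F)) :
    h.classHom (Pic0.mk D) = h.divClass (D : Divisor K F) := rfl

/-- Every ideal class is the class of a divisor. -/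
theorem exists_cl_eq (x : Additive (ClassGroup A)) : ∃ E : Multiset (Pt K A), cl E = x := by
  classical
  obtain ⟨⟨I, hI⟩, hx⟩ := ClassGroup.mk0_surjective (Additive.toMul x)
  have hpt : ∀ p ∈ normalizedFactors I, ∃ φ : A →ₐ[K] K, ptIdeal φ = p := fun p hp => by
    have hprime := prime_of_normalized_factor p hp
    obtain ⟨v, hv, e⟩ := h.exists_prime_eq ⟨p, Ideal.isPrime_of_prime hprime, hprime.ne_zero⟩
    exact ⟨h.ev hv, (h.ptIdeal_ev hv).trans (congrArg HeightOneSpectrum.asIdeal e)⟩
  choose φ hφ using hpt
  refine ⟨((normalizedFactors I).attach.map fun p => φ p.1 p.2).map some, ?_⟩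
  rw [h.cl_eq_mk0]
  have hfm : ∀ m : Multiset (A →ₐ[K] K), ptsIdeal (m.map some) = (m.map ptIdeal).prod := fun m => by
    induction m using Multiset.induction_on with
    | empty => simp [ptsIdeal]
    | cons x m ih => simpa [ptsIdeal] using Or.inl ih
  have hI' : ptsIdeal (((normalizedFactors I).attach.map fun p => φ p.1 p.2).map some) = I := by
    rw [hfm, Multiset.map_map,
      show ((normalizedFactors I).attach.map (ptIdeal ∘ fun p => φ p.1 p.2)) = normalizedFactors I from
        (Multiset.map_congr rfl fun p _ => hφ p.1 p.2).trans (Multiset.attach_map_val _)]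
    exact Ideal.prod_normalizedFactors_eq_self (nonZeroDivisors.ne_zero hI)
  have h' : (⟨_, h.ptsIdeal_mem (((normalizedFactors I).attach.map fun p => φ p.1 p.2).map some)⟩
      : (Ideal A)⁰) = ⟨I, hI⟩ := Subtype.ext hI'
  rw [h', hx]
  rfl

theorem classHom_surjective : Function.Surjective h.classHom := fun x => by
  obtain ⟨E, rfl⟩ := h.exists_cl_eq x
  exact ⟨Pic0.mk ⟨_, h.divOf_mem_degZero E⟩, (h.classHom_mk _).trans (h.divClass_divOf E)⟩

theorem classHom_injective : Function.Injective h.classHom := by
  classical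
  rw [injective_iff_map_eq_zero]
  intro z hz
  obtain ⟨⟨D, hD0⟩, rfl⟩ := Pic0.mk_surjective z
  rw [classHom_mk] at hz
  set P : Place K F →₀ ℕ := D.mapRange Int.toNat rfl
  set N : Place K F →₀ ℕ := (-D).mapRange Int.toNat rfl
  have hD : D = P.mapRange Nat.cast Nat.cast_zero - N.mapRange Nat.cast Nat.cast_zero := by
    ext v
    simp only [P, N, Finsupp.sub_apply, Finsupp.mapRange_apply, Finsupp.neg_apply]
    omega
  change h.divClass D = 0 at hz
  rw [hD, map_sub, h.divClass_natCast, h.divClass_natCast, h.cl_eq_mk0, h.cl_eq_mk0, sub_eq_zero]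
    at hz
  obtain ⟨a, b, ha, hb, hab⟩ := ClassGroup.mk0_eq_mk0_iff.mp (Additive.ofMul.injective hz)
  have haF : algebraMap A F a ≠ 0 := fun e => ha (h.injective (e.trans (map_zero _).symm))
  have hbF : algebraMap A F b ≠ 0 := fun e => hb (h.injective (e.trans (map_zero _).symm))
  set f : F := algebraMap A F b * (algebraMap A F a)⁻¹
  have hf : f ≠ 0 := mul_ne_zero hbF (inv_ne_zero haF)
  have hne : ∀ v : Place K F, v ≠ O → D v = v.ord f := fun v hv => by
    have hc := congrArg (fun I => (normalizedFactors I).count (h.ideal hv)) hab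
    simp only at hc
    rw [normalizedFactors_mul (by simpa using ha) (nonZeroDivisors.ne_zero (h.ptsIdeal_mem _)),
      normalizedFactors_mul (by simpa using hb) (nonZeroDivisors.ne_zero (h.ptsIdeal_mem _)),
      Multiset.count_add, Multiset.count_add, h.count_normalizedFactors_ptsIdeal _ hv,
      h.count_normalizedFactors_ptsIdeal _ hv, h.count_map_toMultiset, h.count_map_toMultiset] at hc
    have h1 := h.count_normalizedFactors_span ha hv
    have h2 := h.count_normalizedFactors_span hb hv
    simp only [P, N, Finsupp.mapRange_apply, Finsupp.neg_apply] at hc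
    rw [v.ord_mul hbF (inv_ne_zero haF), v.ord_inv]
    omega
  have hdiff : D - divFun K f = Finsupp.single O ((D - divFun K f) O) := by
    ext v
    by_cases hv : v = O
    · subst hv; simp
    · simp [Ne.symm hv, hne v hv]
  have hdeg := congrArg Divisor.degree hdiff
  rw [map_sub, degree_divFun, Divisor.mem_degZero.mp hD0, Divisor.degree_single, FunctionField.deg_eq_one] at hdeg
  refine (QuotientAddGroup.eq_zero_iff _).mpr (AddSubgroup.mem_addSubgroupOf.mpr
    ⟨f, hf, fun v => ?_⟩)
  by_cases hv : v = O
  · subst hv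
    simp only [Finsupp.sub_apply, divFun_apply] at hdeg
    show D v = _
    omega
  · exact hne v hv

/-- Degree-zero divisor classes are the ideal classes. -/
def classEquiv : Pic0 K F ≃+ Additive (ClassGroup A) :=
  AddEquiv.ofBijective h.classHom ⟨h.classHom_injective, h.classHom_surjective⟩

theorem classEquiv_divOf (E : Multiset (Pt K A)) :
    h.classEquiv (Pic0.mk ⟨h.divOf E, h.divOf_mem_degZero E⟩) = cl E :=
  h.divClass_divOf E

section Semilinear

variable (g : SemilinearAut K F) (hgO : g • O = O) (γ : A → A)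
  (hγ : ∀ a, algebraMap A F (γ a) = g • algebraMap A F a)
  (π : (A →ₐ[K] K) → A →ₐ[K] K)
  (hπ : ∀ φ a, π φ (γ a) = SemilinearAut.baseAut g (φ a))
include hgO hγ hπ

omit [IsAlgClosed K] [IsFunctionField K F] [IsScalarTower K A F] [IsFractionRing A F]
    [IsDedekindDomain A] hπ [Algebra K A] in
/-- The semilinear automorphism is surjective on the regular functions. -/
theorem exists_preimage (b : A) : ∃ a : A, γ a = b := by
  have hmem : ∀ v : Place K F, v ≠ O → g⁻¹ • algebraMap A F b ∈ v.toValuationSubring := fun v hv => by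
    have hgv : g • v ≠ O := fun e => hv (smul_left_cancel g (e.trans hgO.symm))
    have := h.mem hgv b
    rwa [SemilinearAut.smul_toValuationSubring,
      ValuationSubring.mem_pointwise_smul_iff_inv_smul_mem] at this
  obtain ⟨a, ha⟩ := (h.mem_range_iff _).mpr hmem
  exact ⟨a, h.injective (by rw [hγ, ha, smul_inv_smul])⟩

omit [IsFractionRing A F] [IsDedekindDomain A] in
theorem ptOf_smul (v : Place K F) : h.ptOf (g • v) = (h.ptOf v).map π := by
  by_cases hv : v = O
  · subst hv; rw [hgO, ptOf_self]; rfl
  have hgv : g • v ≠ O := fun e => hv (smul_left_cancel g (e.trans hgO.symm))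
  rw [h.ptOf_of_ne hv, h.ptOf_of_ne hgv, Option.map_some]
  refine congrArg some (AlgHom.ext fun b => ?_)
  obtain ⟨a, rfl⟩ := h.exists_preimage g hgO γ hγ b
  rw [hπ, h.ev_eq_iff hgv, hγ, ← SemilinearAut.smul_algebraMap, ← smul_sub]
  have h1 := (h.ev_eq_iff hv a (h.ev hv a)).mp rfl
  rw [adicValuation_lt_one_iff] at h1 ⊢
  rcases h1 with h1 | h1
  · exact Or.inl (by rw [h1, smul_zero])
  · exact Or.inr (by rwa [SemilinearAut.ord_smul])

theorem smul_divOf (E : Multiset (Pt K A)) :
    g • h.divOf E = h.divOf (E.map (Option.map π)) := by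
  induction E using Multiset.induction_on with
  | empty => simp [divOf]
  | cons P E ih =>
      have h1 : ∀ (P : Pt K A) (E : Multiset (Pt K A)), h.divOf (P ::ₘ E)
          = (Finsupp.single (h.ptEquiv.symm P) (1 : ℤ) - Finsupp.single O (1 : ℤ)) + h.divOf E :=
        fun P E => by simp [divOf]
      have h2 : g • h.ptEquiv.symm P = h.ptEquiv.symm (P.map π) := by
        rw [Equiv.eq_symm_apply]
        show h.ptOf _ = _
        rw [h.ptOf_smul g hgO γ hγ π hπ]
        exact congrArg (Option.map π) (h.ptEquiv.apply_symm_apply P)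
      rw [Multiset.map_cons, h1, h1, smul_add, ih, smul_sub, SemilinearAut.smul_single,
        SemilinearAut.smul_single, hgO, h2]

/-- Semilinear automorphisms fixing `O` act on classes through the points. -/
theorem classEquiv_smul (z : Pic0 K F) (E : Multiset (Pt K A)) (hE : cl E = h.classEquiv z) :
    h.classEquiv (g • z) = cl (E.map (Option.map π)) := by
  obtain rfl : z = Pic0.mk ⟨h.divOf E, h.divOf_mem_degZero E⟩ :=
    h.classEquiv.injective (hE.symm.trans (h.classEquiv_divOf E).symm)
  rw [SemilinearAut.pic0_smul_mk, ← h.classEquiv_divOf]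
  exact congrArg h.classEquiv (congrArg Pic0.mk (Subtype.ext (h.smul_divOf g hgO γ hγ π hπ E)))

end Semilinear

end RegularAway

end Fermat.Agent.MW.Modular
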