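import Fermat.Agent.MW.Modular.SeriesPlace
import Fermat.Agent.MW.Modular.Class
import Fermat.Agent.MW.Weak.Classes
import Fermat.Prelude.Def_ModularCurve_ArithmeticGalois
import Mathlib.FieldTheory.Galois.Infinite
import Mathlib.LinearAlgebra.TensorProduct.Basis
import Mathlib.Algebra.Algebra.Hom.Rat

/-!
# Regular functions away from the `q`-order place over `ℚ` and over `ℚ̄`

For a field `F₀ ⊆ ℚ((q))` with base change `F = ℚ̄F₀ ⊆ ℚ̄((q))`, the functions of `F` regular
outside the `q`-order place are `ℚ̄ ⊗ A₀`, where `A₀` is the ring of such functions of `F₀`.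
-/

set_option autoImplicit false

noncomputable section

open AlgebraicCurve ModularCurve HahnSeries
open Fermat.Agent.FunctionField
open scoped TensorProduct Pointwise

namespace Fermat.Agent.MW.Modular

/-- A field of series over `ℚ` is a `ℚ`-algebra as a subalgebra of the series. -/
abbrev seriesFieldAlgebra (F₀ : IntermediateField ℚ (LaurentSeries ℚ)) : Algebra ℚ F₀ :=
  SubalgebraClass.toAlgebra F₀

attribute [local instance 3000] seriesFieldAlgebra

/-- A basis of `ℚ̄` over `ℚ`. -/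
def qbasis : Module.Basis (Module.Free.ChooseBasisIndex ℚ Qbar) ℚ Qbar :=
  Module.Free.chooseBasis ℚ Qbar

/-- The Galois conjugates of linearly independent numbers are linearly independent vectors. -/
theorem eq_zero_of_forall_sum_mul_conj {ι : Type*} {b : ι → Qbar} (hb : LinearIndependent ℚ b)
    (s : Finset ι) : ∀ a : ι → Qbar, (∀ σ : GalQ, ∑ i ∈ s, a i * σ (b i) = 0) →
      ∀ i ∈ s, a i = 0 := by
  classical
  have : IsAlgClosure ℚ Qbar := ⟨inferInstance, inferInstance⟩
  have : Normal ℚ Qbar := IsAlgClosure.normal ℚ Qbar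
  have : IsGalois ℚ Qbar := {}
  induction s using Finset.induction_on with
  | empty => simp
  | insert j s hj ih =>
    intro a ha
    suffices haj : a j = 0 by
      intro i hi
      rcases Finset.mem_insert.mp hi with rfl | hi
      · exact haj
      refine ih a (fun σ => ?_) i hi
      have := ha σ
      rwa [Finset.sum_insert hj, haj, zero_mul, zero_add] at this
    by_contra haj
    set a' : ι → Qbar := fun i => (a j)⁻¹ * a i with ha'
    have ha'1 : a' j = 1 := inv_mul_cancel₀ haj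
    have ha'0 : ∀ σ : GalQ, ∑ i ∈ insert j s, a' i * σ (b i) = 0 := fun σ => by
      simp only [ha', mul_assoc, ← Finset.mul_sum, ha σ, mul_zero]
    have hrat : ∀ i ∈ s, ∀ τ : GalQ, τ (a' i) = a' i := by
      intro i hi τ
      refine sub_eq_zero.mp (ih (fun i => τ (a' i) - a' i) (fun σ => ?_) i hi)
      have h1 := congrArg τ (ha'0 (τ⁻¹ * σ))
      have h2 := ha'0 σ
      simp only [map_sum, map_mul, map_zero, AlgEquiv.mul_apply] at h1
      have hc : ∀ x : Qbar, τ (τ⁻¹ x) = x := fun x => τ.apply_symm_apply x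
      simp only [hc] at h1
      rw [Finset.sum_insert hj, ha'1] at h1 h2
      rw [map_one] at h1
      simp only [sub_mul, Finset.sum_sub_distrib]
      linear_combination h1 - h2
    have hr : ∀ i ∈ insert j s, ∃ r : ℚ, algebraMap ℚ Qbar r = a' i := by
      intro i hi
      rcases Finset.mem_insert.mp hi with rfl | hi
      · exact ⟨1, by rw [map_one, ha'1]⟩
      exact IntermediateField.mem_bot.mp
        ((InfiniteGalois.mem_bot_iff_fixed _).mpr (hrat i hi))
    choose! r hr using hr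
    have h0 : ∑ i ∈ insert j s, r i • b i = 0 := by
      rw [← ha'0 1]
      exact Finset.sum_congr rfl fun i hi => by rw [Algebra.smul_def, hr i hi]; rfl
    have hrj := linearIndependent_iff'.mp hb _ r h0 j (Finset.mem_insert_self j s)
    have := hr j (Finset.mem_insert_self j s)
    rw [hrj, map_zero, ha'1] at this
    exact zero_ne_one this

/-- The Galois conjugates of linearly independent numbers span. -/
theorem span_conj_eq_top {ι : Type*} {b : ι → Qbar} (hb : LinearIndependent ℚ b) (s : Finset ι) :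
    Submodule.span Qbar (Set.range fun σ : GalQ => fun i : s => σ (b i)) = ⊤ := by
  classical
  by_contra hne
  obtain ⟨f, hf0, hf⟩ := Submodule.exists_le_ker_of_lt_top _ (lt_top_iff_ne_top.mpr hne)
  refine hf0 (LinearMap.pi_ext' fun i => LinearMap.ext_ring ?_)
  set a : ι → Qbar := fun j => if h : j ∈ s then f (Pi.single ⟨j, h⟩ 1) else 0
  have h := eq_zero_of_forall_sum_mul_conj hb s a (fun σ => ?_) i.1 i.2
  · simpa [a] using h
  have hσ : f (fun i : s => σ (b i)) = 0 := hf (Submodule.subset_span ⟨σ, rfl⟩)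
  rw [← hσ]
  conv_rhs => rw [pi_eq_sum_univ' (fun i : s => σ (b i)), map_sum]
  rw [← Finset.sum_coe_sort]
  refine Finset.sum_congr rfl fun i _ => ?_
  rw [map_smul, smul_eq_mul, mul_comm]
  simp [a]

variable (F₀ : IntermediateField ℚ (LaurentSeries ℚ))

/-- The base change to `ℚ̄`. -/
abbrev BC : IntermediateField Qbar (LaurentSeries Qbar) := laurentBaseChange Qbar F₀

/-- `F₀ → ℚ̄F₀`. -/
def emb : F₀ →+* BC F₀ :=
  ((coeffEmb Qbar).comp F₀.val.toRingHom).codRestrict (BC F₀).toSubfield.toSubring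
    fun x => coeffEmb_mem_laurentBaseChange Qbar x.2

/-- The embedding acts coefficientwise. -/
theorem coe_emb (g : F₀) :
    (emb F₀ g : LaurentSeries Qbar) = coeffEmb Qbar (g : LaurentSeries ℚ) := rfl

/-- `ℚ̄ ⊗ F₀ → ℚ̄F₀`. -/
def tens : Qbar ⊗[ℚ] F₀ →ₐ[Qbar] BC F₀ :=
  Algebra.TensorProduct.lift (Algebra.ofId Qbar (BC F₀)) (emb F₀).toRatAlgHom
    fun _ _ => Commute.all _ _

theorem tens_tmul (c : Qbar) (g : F₀) : tens F₀ (c ⊗ₜ g) = c • emb F₀ g := by
  rw [tens, Algebra.TensorProduct.lift_tmul, Algebra.smul_def]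
  rfl

theorem tens_surjective : Function.Surjective (tens F₀) := by
  let : Algebra F₀ (BC F₀) := (emb F₀).toAlgebra
  let T : Subalgebra F₀ (BC F₀) := Algebra.adjoin F₀ (Set.range (algebraMap Qbar (BC F₀)))
  have : Algebra.IsIntegral F₀ T := Algebra.IsIntegral.adjoin fun x hx => by
    obtain ⟨c, rfl⟩ := hx
    obtain ⟨p, hp, hpc⟩ := (Algebra.IsIntegral.isIntegral (R := ℚ) c)
    refine ⟨p.map (algebraMap ℚ F₀), hp.map _, ?_⟩
    have he : (algebraMap F₀ (BC F₀)).comp (algebraMap ℚ F₀) =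
        (algebraMap Qbar (BC F₀)).comp (algebraMap ℚ Qbar) := RingHom.ext_rat _ _
    rw [Polynomial.eval₂_map, he, ← Polynomial.hom_eval₂, hpc, map_zero]
  have hT : ∀ x : BC F₀, x ∈ T := by
    rintro ⟨x, hx⟩
    have key : ∃ hy : x ∈ BC F₀, (⟨x, hy⟩ : BC F₀) ∈ T := by
      refine Subfield.closure_induction (p := fun z _ => ∃ hz : z ∈ BC F₀, (⟨z, hz⟩ : BC F₀) ∈ T)
        ?_ ?_ ?_ ?_ ?_ ?_ (mem_laurentBaseChange_iff.mp hx)
      · rintro y (⟨a, rfl⟩ | ⟨z, hz, rfl⟩)
        · exact ⟨_, Algebra.subset_adjoin ⟨a, rfl⟩⟩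
        · exact ⟨_, T.algebraMap_mem ⟨z, hz⟩⟩
      · exact ⟨one_mem _, one_mem T⟩
      · rintro y z _ _ ⟨hy, ty⟩ ⟨hz, tz⟩
        exact ⟨add_mem hy hz, (add_mem ty tz : (⟨y, hy⟩ + ⟨z, hz⟩ : BC F₀) ∈ T)⟩
      · rintro y _ ⟨hy, ty⟩
        exact ⟨neg_mem hy, (neg_mem ty : -(⟨y, hy⟩ : BC F₀) ∈ T)⟩
      · rintro y _ ⟨hy, ty⟩
        exact ⟨inv_mem hy, (Algebra.IsIntegral.inv_mem (A := T) ty : (⟨y, hy⟩ : BC F₀)⁻¹ ∈ T)⟩
      · rintro y z _ _ ⟨hy, ty⟩ ⟨hz, tz⟩
        exact ⟨mul_mem hy hz, (mul_mem ty tz : (⟨y, hy⟩ * ⟨z, hz⟩ : BC F₀) ∈ T)⟩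
    exact key.2
  intro x
  show x ∈ (tens F₀).range
  induction hT x using Algebra.adjoin_induction with
  | mem y hy =>
    obtain ⟨c, rfl⟩ := hy
    exact (tens F₀).range.algebraMap_mem c
  | algebraMap g =>
    exact ⟨1 ⊗ₜ g, by rw [AlgHom.toRingHom_eq_coe, RingHom.coe_coe, tens_tmul, one_smul]; rfl⟩
  | add a b _ _ ha hb => exact add_mem ha hb
  | mul a b _ _ ha hb => exact mul_mem ha hb

/-- Every element of the base change is a combination of a `ℚ`-basis of `ℚ̄` over the series. -/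
theorem exists_eq_sum (x : BC F₀) :
    ∃ (s : Finset (Module.Free.ChooseBasisIndex ℚ Qbar))
      (g : Module.Free.ChooseBasisIndex ℚ Qbar → F₀), x = ∑ i ∈ s, qbasis i • emb F₀ (g i) := by
  obtain ⟨t, rfl⟩ := tens_surjective F₀ x
  obtain ⟨G, rfl⟩ := TensorProduct.eq_repr_basis_left qbasis t
  refine ⟨G.support, G, ?_⟩
  rw [Finsupp.sum, map_sum]
  exact Finset.sum_congr rfl fun i _ => tens_tmul F₀ _ _

variable {F₀}

/-- The coefficients of a combination of embedded series. -/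
theorem coeff_sum_emb {ι : Type*} (s : Finset ι) (c : ι → Qbar) (g : ι → F₀) (k : ℤ) :
    ((∑ i ∈ s, c i • emb F₀ (g i) : BC F₀) : LaurentSeries Qbar).coeff k =
      ∑ i ∈ s, (g i : LaurentSeries ℚ).coeff k • c i := by
  rw [AddSubmonoidClass.coe_finsetSum, HahnSeries.coeff_sum]
  refine Finset.sum_congr rfl fun i _ => ?_
  rw [coe_smul_coeff, coe_emb, coeffEmb_coeff, Algebra.smul_def, mul_comm]

/-- A vanishing coefficient of a basis combination forces the rational coefficients to vanish. -/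
theorem coeff_eq_zero_of_sum {s : Finset (Module.Free.ChooseBasisIndex ℚ Qbar)}
    {g : Module.Free.ChooseBasisIndex ℚ Qbar → F₀} {k : ℤ}
    (h : ((∑ i ∈ s, qbasis i • emb F₀ (g i) : BC F₀) : LaurentSeries Qbar).coeff k = 0) :
    ∀ i ∈ s, (g i : LaurentSeries ℚ).coeff k = 0 := by
  rw [coeff_sum_emb] at h
  exact linearIndependent_iff'.mp qbasis.linearIndependent s _ h

theorem order_coeffEmb (f : LaurentSeries ℚ) : (coeffEmb Qbar f).order = f.order := by
  rcases eq_or_ne f 0 with rfl | hf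
  · simp
  have h : (coeffEmb Qbar f).coeff f.order ≠ 0 := by
    rw [coeffEmb_coeff]
    exact (map_ne_zero _).mpr (HahnSeries.coeff_order_eq_zero.not.mpr hf)
  refine le_antisymm (order_le_of_coeff_ne_zero h) (le_of_not_gt fun hlt => ?_)
  refine HahnSeries.coeff_order_eq_zero.not.mpr (fun e : coeffEmb Qbar f = 0 => h (by rw [e, HahnSeries.coeff_zero])) ?_
  rw [coeffEmb_coeff, coeff_eq_zero_of_lt_order hlt, map_zero]

section Curve

variable [IsFunctionField ℚ F₀] [HasSimplePole F₀] [IsFunctionField Qbar (BC F₀)]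

instance hasSimplePole_bc : HasSimplePole (BC F₀) := by
  obtain ⟨x, hx⟩ := HasSimplePole.exists_order_eq_neg_one (E := F₀)
  exact ⟨emb F₀ x, by rw [coe_emb, order_coeffEmb, hx]⟩

theorem emb_mem_qPlace {g : F₀} :
    emb F₀ g ∈ (qPlace (BC F₀)).toValuationSubring ↔ g ∈ (qPlace F₀).toValuationSubring := by
  simp only [mem_qPlace, mem_intSub_iff_coeff, coe_emb, coeffEmb_coeff, map_eq_zero]

theorem mem_of_sum_mem_qPlace {s : Finset (Module.Free.ChooseBasisIndex ℚ Qbar)}
    {g : Module.Free.ChooseBasisIndex ℚ Qbar → F₀}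
    (h : (∑ i ∈ s, qbasis i • emb F₀ (g i) : BC F₀) ∈ (qPlace (BC F₀)).toValuationSubring) :
    ∀ i ∈ s, g i ∈ (qPlace F₀).toValuationSubring := by
  intro i hi
  rw [mem_qPlace, mem_intSub_iff_coeff] at h ⊢
  exact fun n hn => coeff_eq_zero_of_sum (h n hn) i hi

omit [IsFunctionField ℚ ↥F₀] in
theorem smul_mem_regRing {E : BC F₀} (c : Qbar) (h : E ∈ regRing (BC F₀)) :
    c • E ∈ regRing (BC F₀) :=
  (regRing (BC F₀)).smul_mem h c

/-- The embedding preserves regularity away from the place at infinity. -/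
theorem emb_mem_regRing {g : F₀} (hg : g ∈ regRing F₀) : emb F₀ g ∈ regRing (BC F₀) := by
  intro v hv
  let V := v.toValuationSubring.comap (emb F₀)
  have hV : ∀ r : ℚ, algebraMap ℚ F₀ r ∈ V := fun r => by
    show emb F₀ (algebraMap ℚ F₀ r) ∈ v.toValuationSubring
    have : (emb F₀).comp (algebraMap ℚ F₀) =
        (algebraMap Qbar (BC F₀)).comp (algebraMap ℚ Qbar) := RingHom.ext_rat _ _
    exact (RingHom.congr_fun this r) ▸ v.algebraMap_mem' _
  by_cases htop : V = ⊤
  · exact show g ∈ V from htop ▸ ValuationSubring.mem_top g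
  by_cases hw : placeOfValuationSubring V hV htop = qPlace F₀
  · refine absurd (eq_of_le fun x hx => ?_).symm hv
    obtain ⟨s, a, rfl⟩ := exists_eq_sum F₀ x
    refine sum_mem fun i hi => ?_
    rw [Algebra.smul_def]
    refine mul_mem (v.algebraMap_mem' _) ?_
    have h := mem_of_sum_mem_qPlace hx i hi
    rw [← hw] at h
    exact h
  · exact hg _ hw

theorem mem_regRing_of_emb {g : F₀} (hg : emb F₀ g ∈ regRing (BC F₀)) : g ∈ regRing F₀ := by
  intro w hw
  obtain ⟨V, hle, hloc⟩ := IsLocalRing.exists_factor_valuationRing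
    ((emb F₀).comp w.toValuationSubring.subtype)
  have hle' : ∀ y : w.toValuationSubring, emb F₀ (y : F₀) ∈ V := fun y =>
    hle y
  have hVw : ∀ x : F₀, emb F₀ x ∈ V → x ∈ w.toValuationSubring := by
    intro x hx
    by_contra hxw
    have hx0 : x ≠ 0 := fun e => hxw (e ▸ zero_mem _)
    have hxi := (w.toValuationSubring.mem_or_inv_mem x).resolve_left hxw
    let y : w.toValuationSubring := ⟨x⁻¹, hxi⟩
    have hV : IsUnit (⟨emb F₀ (y : F₀), hle' y⟩ : V) := by
      refine IsUnit.of_mul_eq_one (⟨emb F₀ x, hx⟩ : V) (Subtype.ext ?_)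
      show emb F₀ x⁻¹ * emb F₀ x = 1
      rw [← map_mul, inv_mul_cancel₀ hx0, map_one]
    obtain ⟨u, hu⟩ := @IsLocalHom.map_nonunit _ _ _ _ _ _ _ hloc y hV
    have h1 : (y : F₀) * ((u⁻¹ : w.toValuationSubringˣ) : w.toValuationSubring) = 1 := by
      rw [← hu]
      exact congrArg Subtype.val u.mul_inv
    have h2 := eq_inv_of_mul_eq_one_right h1
    rw [show (y : F₀) = x⁻¹ from rfl, inv_inv] at h2
    exact hxw (h2 ▸ ((u⁻¹ : w.toValuationSubringˣ) : w.toValuationSubring).2)
  have hK : ∀ c : Qbar, algebraMap Qbar (BC F₀) c ∈ V := by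
    intro c
    have hint : IsIntegral V (algebraMap Qbar (BC F₀) c) := by
      obtain ⟨p, hp, hpc⟩ := Algebra.IsIntegral.isIntegral (R := ℚ) c
      let j : ℚ →+* V := ((emb F₀).comp (algebraMap ℚ F₀)).codRestrict V.toSubring
        fun r => hle' ⟨_, w.algebraMap_mem' r⟩
      refine ⟨p.map j, hp.map _, ?_⟩
      have : (algebraMap V (BC F₀)).comp j =
          (algebraMap Qbar (BC F₀)).comp (algebraMap ℚ Qbar) := RingHom.ext_rat _ _
      rw [Polynomial.eval₂_map, this, ← Polynomial.hom_eval₂, hpc, map_zero]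
    obtain ⟨y, hy⟩ := IsIntegrallyClosed.algebraMap_eq_of_integral hint
    exact hy ▸ y.2
  have htop : V ≠ ⊤ := fun e => w.ne_top' (eq_top_iff.mpr fun x _ =>
    hVw x (e ▸ ValuationSubring.mem_top _))
  refine hVw g (hg (placeOfValuationSubring V hK htop) fun e => hw (eq_of_le fun x hx => ?_))
  have h1 : emb F₀ x ∈ V := hle' ⟨x, hx⟩
  have h2 : emb F₀ x ∈ (placeOfValuationSubring V hK htop).toValuationSubring := h1
  rw [e] at h2
  exact emb_mem_qPlace.mp h2

omit [IsFunctionField ℚ ↥F₀] in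
theorem smul_qPlace (σ : GalQ) :
    arithmeticGalois F₀ σ • qPlace (BC F₀) = qPlace (BC F₀) := by
  refine Place.ext (SetLike.ext fun x => ?_)
  rw [SemilinearAut.smul_toValuationSubring, ValuationSubring.mem_pointwise_smul_iff_inv_smul_mem,
    ← map_inv, mem_qPlace, mem_qPlace, mem_intSub_iff_coeff, mem_intSub_iff_coeff]
  refine forall₂_congr fun n _ => ?_
  rw [coe_arithmeticGalois_smul, coeffMap_coeff]
  exact map_eq_zero_iff _ (σ⁻¹ : GalQ).injective

omit [IsFunctionField ℚ ↥F₀] in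
theorem galois_smul_mem_regRing (σ : GalQ) {x : BC F₀} (hx : x ∈ regRing (BC F₀)) :
    arithmeticGalois F₀ σ • x ∈ regRing (BC F₀) := by
  intro v hv
  set g := arithmeticGalois F₀ σ
  have hne : g⁻¹ • v ≠ qPlace (BC F₀) := fun e => hv (by
    rw [← smul_inv_smul g v, e, smul_qPlace])
  have h := hx _ hne
  rwa [SemilinearAut.smul_toValuationSubring, ValuationSubring.mem_pointwise_smul_iff_inv_smul_mem,
    inv_inv] at h

omit [IsFunctionField ℚ ↥F₀] [HasSimplePole F₀] [IsFunctionField Qbar ↥(BC F₀)] in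
theorem galois_smul_smul_emb (σ : GalQ) (c : Qbar) (g : F₀) :
    arithmeticGalois F₀ σ • (c • emb F₀ g) = σ c • emb F₀ g := by
  refine Subtype.ext (HahnSeries.ext (funext fun k => ?_))
  rw [coe_arithmeticGalois_smul, coeffMap_coeff, coe_smul_coeff, coe_smul_coeff, coe_emb,
    coeffEmb_coeff]
  show σ (c * _) = σ c * _
  rw [map_mul, AlgEquiv.commutes]

omit [IsFunctionField ℚ ↥F₀] [HasSimplePole F₀] [IsFunctionField Qbar ↥(BC F₀)] in
theorem galois_smul_sum {ι : Type*} (σ : GalQ) (s : Finset ι) (c : ι → Qbar) (g : ι → F₀) :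
    arithmeticGalois F₀ σ • (∑ i ∈ s, c i • emb F₀ (g i)) = ∑ i ∈ s, σ (c i) • emb F₀ (g i) := by
  rw [Finset.smul_sum]
  exact Finset.sum_congr rfl fun i _ => galois_smul_smul_emb σ _ _

/-- A regular basis combination has regular components. -/
theorem mem_regRing_of_sum_mem {s : Finset (Module.Free.ChooseBasisIndex ℚ Qbar)}
    {g : Module.Free.ChooseBasisIndex ℚ Qbar → F₀}
    (h : (∑ i ∈ s, qbasis i • emb F₀ (g i) : BC F₀) ∈ regRing (BC F₀)) :
    ∀ i ∈ s, g i ∈ regRing F₀ := by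
  classical
  intro j hj
  refine mem_regRing_of_emb ?_
  let T : (s → Qbar) →ₗ[Qbar] BC F₀ :=
    Fintype.linearCombination Qbar fun i : s => emb F₀ (g i)
  have hW : Submodule.span Qbar
      (Set.range fun σ : GalQ => fun i : s => σ (qbasis i)) ≤
        (Subalgebra.toSubmodule (regRing (BC F₀))).comap T := by
    refine Submodule.span_le.mpr ?_
    rintro _ ⟨σ, rfl⟩
    show T _ ∈ regRing (BC F₀)
    rw [Fintype.linearCombination_apply]
    have := galois_smul_mem_regRing σ h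
    rw [galois_smul_sum, ← Finset.sum_coe_sort] at this
    exact this
  rw [span_conj_eq_top qbasis.linearIndependent s] at hW
  have := hW (Submodule.mem_top (x := Pi.single (⟨j, hj⟩ : s) (1 : Qbar)))
  simpa [T, Fintype.linearCombination_apply_single] using this

variable (F₀)

/-- `ℚ̄ ⊗ A₀ → F`. -/
def toBC : Qbar ⊗[ℚ] regRing F₀ →ₐ[Qbar] BC F₀ :=
  (tens F₀).comp (Algebra.TensorProduct.map (AlgHom.id Qbar Qbar) (regRing F₀).val)

omit [IsFunctionField Qbar ↥(BC F₀)] in
theorem toBC_tmul (c : Qbar) (a : regRing F₀) : toBC F₀ (c ⊗ₜ a) = c • emb F₀ a := by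
  rw [toBC, AlgHom.comp_apply, Algebra.TensorProduct.map_tmul]
  exact tens_tmul F₀ c a

omit [IsFunctionField Qbar ↥(BC F₀)] in
theorem toBC_injective : Function.Injective (toBC F₀) := by
  rw [injective_iff_map_eq_zero]
  intro t ht
  obtain ⟨G, rfl⟩ := TensorProduct.eq_repr_basis_left qbasis t
  rw [Finsupp.sum, map_sum] at ht
  simp only [toBC_tmul] at ht
  refine Finset.sum_eq_zero fun i hi => ?_
  have h : ((G i : regRing F₀) : F₀) = 0 := Subtype.ext (HahnSeries.ext (funext fun k =>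
    coeff_eq_zero_of_sum (g := fun i => (G i : F₀)) (s := G.support)
      (by rw [ht]; simp) i hi))
  show qbasis i ⊗ₜ[ℚ] G i = 0
  rw [show G i = 0 from Subtype.ext h, TensorProduct.tmul_zero]

theorem toBC_mem_regRing (t : Qbar ⊗[ℚ] regRing F₀) : toBC F₀ t ∈ regRing (BC F₀) := by
  induction t with
  | zero => rw [map_zero]; exact zero_mem _
  | tmul c a => rw [toBC_tmul]; exact smul_mem_regRing c (emb_mem_regRing a.2)
  | add x y hx hy => rw [map_add]; exact add_mem hx hy

theorem exists_toBC_eq {x : BC F₀} (hx : x ∈ regRing (BC F₀)) : ∃ t, toBC F₀ t = x := by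
  obtain ⟨s, g, rfl⟩ := exists_eq_sum F₀ x
  have hg := mem_regRing_of_sum_mem hx
  refine ⟨∑ i ∈ s.attach, qbasis i.1 ⊗ₜ ⟨g i.1, hg i.1 i.2⟩, ?_⟩
  rw [map_sum]
  conv_rhs => rw [← Finset.sum_attach]
  exact Finset.sum_congr rfl fun i _ => toBC_tmul F₀ _ _

instance algebraBC : Algebra (Qbar ⊗[ℚ] regRing F₀) (BC F₀) := (toBC F₀).toRingHom.toAlgebra

instance isScalarTowerBC : IsScalarTower Qbar (Qbar ⊗[ℚ] regRing F₀) (BC F₀) :=
  IsScalarTower.of_algebraMap_eq fun c => ((toBC F₀).commutes c).symm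

theorem regularAwayBC : RegularAway (qPlace (BC F₀)) (Qbar ⊗[ℚ] regRing F₀) where
  injective := toBC_injective F₀
  mem_range_iff _ := ⟨fun ⟨t, ht⟩ => ht ▸ toBC_mem_regRing F₀ t, fun hf => exists_toBC_eq F₀ hf⟩

instance isDedekindDomainBC : IsDedekindDomain (Qbar ⊗[ℚ] regRing F₀) :=
  (regularAwayBC F₀).isDedekindDomain

instance isFractionRingBC : IsFractionRing (Qbar ⊗[ℚ] regRing F₀) (BC F₀) :=
  (regularAwayBC F₀).isFractionRing

/-- Degree-zero divisor classes are ideal classes of `ℚ̄ ⊗ A₀`. -/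
def pic0Equiv : Pic0 Qbar (BC F₀) ≃+ Additive (ClassGroup (Qbar ⊗[ℚ] regRing F₀)) :=
  (regularAwayBC F₀).classEquiv

omit [IsFunctionField Qbar ↥(BC F₀)] in
theorem toBC_galFun (σ : GalQ) (t : Qbar ⊗[ℚ] regRing F₀) :
    toBC F₀ (galFun σ t) = arithmeticGalois F₀ σ • toBC F₀ t := by
  induction t with
  | zero => rw [map_zero, map_zero, smul_zero]
  | tmul c a => rw [galFun_tmul, toBC_tmul, toBC_tmul, galois_smul_smul_emb]
  | add x y hx hy => rw [map_add, map_add, map_add, smul_add, hx, hy]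

/-- The comparison of divisor classes with ideal classes is Galois equivariant. -/
theorem pic0Equiv_smul (σ : GalQ) (z : Pic0 Qbar (BC F₀)) :
    pic0Equiv F₀ (σ • z) = σ • pic0Equiv F₀ z := by
  obtain ⟨E, hE⟩ := (regularAwayBC F₀).exists_cl_eq (pic0Equiv F₀ z)
  rw [← hE, smul_cl, galois_smul_pic0_def]
  exact (regularAwayBC F₀).classEquiv_smul (arithmeticGalois F₀ σ) (smul_qPlace σ) (galFun σ)
    (toBC_galFun F₀ σ)
    (fun φ => Algebra.TensorProduct.lift (AlgHom.id Qbar Qbar)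
      ((σ : Qbar →ₐ[ℚ] Qbar).comp
        ((φ.restrictScalars ℚ).comp Algebra.TensorProduct.includeRight))
      (fun _ _ => Commute.all _ _))
    (fun φ a => galPt_some_galFun σ φ _ rfl a) z E hE

end Curve

end Fermat.Agent.MW.Modular
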