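import Fermat.Agent.MW.Core.Defs
import Fermat.Agent.MW.Modular.Holomorphy
import Fermat.Prelude.Def_ModularCurve_LaurentCoeff
import Mathlib.RingTheory.LaurentSeries

/-!
# The `q`-order place of a field of Laurent series and its ring of regular functions

For a function field `E ⊆ L((q))` with an element of order `-1`, the order in `q` is a place
`qPlace E` of degree one, and the functions regular outside it have a `CurveBasis`.
-/

set_option autoImplicit false

noncomputable section

open WithZero AlgebraicCurve HahnSeries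
open Fermat.Agent.FunctionField

namespace Fermat.Agent.MW.Modular

variable {L : Type} [Field L]

/-- The valuation subring `L⟦q⟧` of `L((q))`. -/
def intSub (L : Type) [Field L] : ValuationSubring (LaurentSeries L) where
  carrier := {f | f = 0 ∨ 0 ≤ f.order}
  zero_mem' := Or.inl rfl
  one_mem' := Or.inr (by rw [order_one])
  mul_mem' {a b} ha hb := by
    rcases eq_or_ne a 0 with rfl | ha0
    · exact Or.inl (zero_mul b)
    rcases eq_or_ne b 0 with rfl | hb0
    · exact Or.inl (mul_zero a)
    right
    rw [order_mul ha0 hb0]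
    exact add_nonneg (ha.resolve_left ha0) (hb.resolve_left hb0)
  add_mem' {a b} ha hb := by
    rcases eq_or_ne (a + b) 0 with h | h
    · exact Or.inl h
    refine Or.inr (le_of_not_gt fun hlt => HahnSeries.coeff_order_eq_zero.not.mpr h ?_)
    rw [HahnSeries.coeff_add]
    have hz : ∀ c : LaurentSeries L, (c = 0 ∨ 0 ≤ c.order) → c.coeff (a + b).order = 0 := by
      rintro c (rfl | hc)
      · simp
      · exact coeff_eq_zero_of_lt_order (hlt.trans_le hc)
    rw [hz a ha, hz b hb, add_zero]
  neg_mem' {a} ha := by
    rcases ha with rfl | ha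
    · exact Or.inl neg_zero
    · exact Or.inr (by rwa [HahnSeries.order_neg])
  mem_or_inv_mem' a := by
    rcases eq_or_ne a 0 with rfl | ha
    · exact Or.inl (Or.inl rfl)
    by_cases h : 0 ≤ a.order
    · exact Or.inl (Or.inr h)
    refine Or.inr (Or.inr ?_)
    have := order_mul ha (inv_ne_zero ha)
    rw [mul_inv_cancel₀ ha, order_one] at this
    omega

theorem mem_intSub {f : LaurentSeries L} : f ∈ intSub L ↔ f = 0 ∨ 0 ≤ f.order := Iff.rfl

/-- An integral series has no negative coefficients. -/
theorem mem_intSub_iff_coeff {f : LaurentSeries L} :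
    f ∈ intSub L ↔ ∀ n : ℤ, n < 0 → f.coeff n = 0 := by
  rw [mem_intSub]
  constructor
  · rintro (rfl | h) n hn
    · simp
    · exact coeff_eq_zero_of_lt_order (hn.trans_le h)
  · intro h
    by_contra! hc
    exact HahnSeries.coeff_order_eq_zero.not.mpr hc.1 (h _ hc.2)

theorem order_inv' {f : LaurentSeries L} (hf : f ≠ 0) : f⁻¹.order = -f.order := by
  have := order_mul hf (inv_ne_zero hf)
  rw [mul_inv_cancel₀ hf, order_one] at this
  omega

theorem order_zpow' {f : LaurentSeries L} (hf : f ≠ 0) (n : ℤ) : (f ^ n).order = n * f.order := by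
  cases n with
  | ofNat k => simp [HahnSeries.order_pow]
  | negSucc k =>
      rw [zpow_negSucc, order_inv' (pow_ne_zero _ hf), HahnSeries.order_pow, Int.negSucc_eq]
      simp only [nsmul_eq_mul]
      push_cast
      ring

theorem algebraMap_mem_intSub (c : L) : algebraMap L (LaurentSeries L) c ∈ intSub L := by
  rw [mem_intSub_iff_coeff]
  intro n hn
  rw [ModularCurve.algebraMap_laurentSeries_eq_single, coeff_single_of_ne hn.ne]

/-- A constant multiplies every coefficient. -/
theorem coeff_algebraMap_mul (c : L) (f : LaurentSeries L) (k : ℤ) :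
    (algebraMap L (LaurentSeries L) c * f).coeff k = c * f.coeff k := by
  rw [ModularCurve.algebraMap_laurentSeries_eq_single, HahnSeries.coeff_single_mul, sub_zero]

/-- Scalars in a field of series multiply every coefficient. -/
theorem coe_smul_coeff {E : IntermediateField L (LaurentSeries L)} (c : L) (f : E) (k : ℤ) :
    ((c • f : E) : LaurentSeries L).coeff k = c * (f : LaurentSeries L).coeff k := by
  rw [Algebra.smul_def]
  exact coeff_algebraMap_mul c f k

variable (E : IntermediateField L (LaurentSeries L))

/-- `E` contains a series of order `-1`. -/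
class HasSimplePole : Prop where
  exists_order_eq_neg_one : ∃ x : E, (x : LaurentSeries L).order = -1

variable [HasSimplePole E]

variable [IsFunctionField L E]

omit [IsFunctionField L ↥E] in
theorem intSub_comap_ne_top : (intSub L).comap E.val.toRingHom ≠ ⊤ := by
  obtain ⟨x, hx⟩ := HasSimplePole.exists_order_eq_neg_one (E := E)
  intro h
  have : (x : LaurentSeries L) ∈ intSub L :=
    ValuationSubring.mem_comap.mp (h ▸ ValuationSubring.mem_top x)
  rcases mem_intSub.mp this with h0 | h0
  · rw [h0, order_zero] at hx; omega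
  · omega

/-- The place of `E` given by the order in `q`. -/
def qPlace : Place L E :=
  placeOfValuationSubring ((intSub L).comap E.val.toRingHom) algebraMap_mem_intSub
    (intSub_comap_ne_top E)

variable {E}

/-- The functions regular at the `q`-place are the integral series. -/
theorem mem_qPlace {f : E} :
    f ∈ (qPlace E).toValuationSubring ↔ (f : LaurentSeries L) ∈ intSub L := Iff.rfl

theorem order_eq_zero_of_unit (u : (qPlace E).toValuationSubringˣ) :
    (((u : (qPlace E).toValuationSubring) : E) : LaurentSeries L).order = 0 := by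
  have h1 : (((u : (qPlace E).toValuationSubring) : E) : LaurentSeries L) ∈ intSub L :=
    mem_qPlace.mp (u : (qPlace E).toValuationSubring).2
  have h2 : ((((u⁻¹ : (qPlace E).toValuationSubringˣ) : (qPlace E).toValuationSubring) : E) :
      LaurentSeries L) ∈ intSub L :=
    mem_qPlace.mp ((u⁻¹ : (qPlace E).toValuationSubringˣ) : (qPlace E).toValuationSubring).2
  have h3 : (((u : (qPlace E).toValuationSubring) : E) : LaurentSeries L) *
      ((((u⁻¹ : (qPlace E).toValuationSubringˣ) : (qPlace E).toValuationSubring) : E) :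
        LaurentSeries L) = 1 :=
    congrArg (fun z : (qPlace E).toValuationSubring => ((z : E) : LaurentSeries L)) u.mul_inv
  have h4 := left_ne_zero_of_mul_eq_one h3
  have h5 := right_ne_zero_of_mul_eq_one h3
  have h6 := order_mul h4 h5
  rw [h3, order_one] at h6
  rcases h1 with h1 | h1
  · exact absurd h1 h4
  rcases h2 with h2 | h2
  · exact absurd h2 h5
  omega

/-- The order at the `q`-place is the order of the series. -/
theorem ord_qPlace (f : E) : (qPlace E).ord f = (f : LaurentSeries L).order := by
  rcases eq_or_ne f 0 with rfl | hf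
  · simp
  obtain ⟨π, hπ⟩ := IsDiscreteValuationRing.exists_irreducible (qPlace E).toValuationSubring
  have hπ0 : ((π : E) : LaurentSeries L) ≠ 0 := by simpa using hπ.ne_zero
  have key : ∀ g : E, g ≠ 0 →
      (g : LaurentSeries L).order = (qPlace E).ord g * ((π : E) : LaurentSeries L).order := by
    intro g hg
    obtain ⟨u, hu⟩ := (qPlace E).exists_unit_mul_zpow hg hπ
    conv_lhs => rw [hu]
    rw [MulMemClass.coe_mul, order_mul, order_eq_zero_of_unit, zero_add,
      show (((π : E) ^ (qPlace E).ord g : E) : LaurentSeries L)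
        = ((π : E) : LaurentSeries L) ^ (qPlace E).ord g from map_zpow₀ E.val _ _,
      order_zpow' hπ0]
    · intro h0
      exact u.ne_zero (Subtype.ext (Subtype.ext h0))
    · intro h0
      exact zpow_ne_zero _ (show (π : E) ≠ 0 by simpa using hπ.ne_zero) (Subtype.ext h0)
  obtain ⟨x, hx⟩ := HasSimplePole.exists_order_eq_neg_one (E := E)
  have hx0 : x ≠ 0 := fun h0 => by simp [h0] at hx
  have h1 := key x hx0
  rw [hx] at h1
  have hπnn : 0 ≤ ((π : E) : LaurentSeries L).order :=
    (mem_intSub.mp (mem_qPlace.mp π.2)).resolve_left hπ0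
  have hπ1 : ((π : E) : LaurentSeries L).order = 1 := by
    rcases Int.eq_one_or_neg_one_of_mul_eq_neg_one
      (by rw [mul_comm]; exact h1.symm :
        ((π : E) : LaurentSeries L).order * (qPlace E).ord x = -1) with h | h
    · exact h
    · omega
  rw [key f hf, hπ1, mul_one]

theorem deg_qPlace : (qPlace E).deg = 1 := by
  have hs : Function.Surjective (algebraMap L (qPlace E).ResidueField) := by
    intro r
    obtain ⟨f, rfl⟩ := IsLocalRing.residue_surjective r
    refine ⟨((f : E) : LaurentSeries L).coeff 0, ?_⟩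
    symm
    show IsLocalRing.residue _ f = IsLocalRing.residue _ (algebraMap L _ _)
    rw [← sub_eq_zero, ← map_sub, IsLocalRing.residue_eq_zero_iff, IsLocalRing.mem_maximalIdeal,
      mem_nonunits_iff]
    intro hu
    obtain ⟨u, hu⟩ := hu
    have h0 := order_eq_zero_of_unit u
    have hne : (((u : (qPlace E).toValuationSubring) : E) : LaurentSeries L) ≠ 0 := fun e =>
      u.ne_zero (Subtype.ext (Subtype.ext e))
    refine HahnSeries.coeff_order_eq_zero.not.mpr hne ?_
    rw [h0, hu]
    show (((f : E) : LaurentSeries L) - algebraMap L (LaurentSeries L) _).coeff 0 = 0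
    rw [coeff_sub, ModularCurve.algebraMap_laurentSeries_eq_single, coeff_single_same, sub_self]
  exact (LinearEquiv.ofBijective (Algebra.linearMap L (qPlace E).ResidueField)
    ⟨(algebraMap L (qPlace E).ResidueField).injective, hs⟩).finrank_eq.symm.trans
    (Module.finrank_self L)

variable (E)

/-- The functions regular outside the `q`-order place. -/
def regRing : Subalgebra L E where
  carrier := {f | ∀ v : Place L E, v ≠ qPlace E → f ∈ v.toValuationSubring}
  mul_mem' ha hb v hv := mul_mem (ha v hv) (hb v hv)
  add_mem' ha hb v hv := add_mem (ha v hv) (hb v hv)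
  algebraMap_mem' c v _ := v.algebraMap_mem' c

variable {E}

/-- Membership in the ring of functions regular away from the `q`-place. -/
theorem mem_regRing {f : E} :
    f ∈ regRing E ↔ ∀ v : Place L E, v ≠ qPlace E → f ∈ v.toValuationSubring := Iff.rfl

theorem order_nonpos {f : E} (hf : f ∈ regRing E) (hf0 : f ≠ 0) :
    (f : LaurentSeries L).order ≤ 0 := by
  by_contra! hlt
  have : f ∈ riemannRochSpace (-Finsupp.single (qPlace E) (1 : ℤ) : Divisor L E) := by
    classical
    rw [mem_riemannRochSpace_iff]
    intro v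
    refine Or.inr ?_
    by_cases hv : v = qPlace E
    · subst hv
      simp [ord_qPlace]
      omega
    · simpa [Finsupp.single_apply, Ne.symm hv] using
        ((v.adicValuation_le_one_iff).mp
          (v.adicValuation_le_one_of_mem (hf v hv))).resolve_left hf0
  rw [riemannRochSpace_neg_single, Submodule.mem_bot] at this
  exact hf0 this

variable (E)

/-- `n` is the pole order of a regular function. -/
def IsNongap (n : ℕ) : Prop :=
  ∃ f : E, f ∈ regRing E ∧ f ≠ 0 ∧ (f : LaurentSeries L).order = -(n : ℤ)

theorem exists_forall_isNongap : ∃ B : ℕ, ∀ n, B ≤ n → IsNongap E n := by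
  classical
  obtain ⟨c, hc⟩ := exists_index_eq_zero (K := L) (F := E)
  refine ⟨c.natAbs + 1, fun n hn => ?_⟩
  set D : Divisor L E := Finsupp.single (qPlace E) (n : ℤ)
  set D' : Divisor L E := Finsupp.single (qPlace E) ((n : ℤ) - 1)
  have hdeg : Divisor.degree D = n := by simp [D, deg_qPlace]
  have hdeg' : Divisor.degree D' = (n : ℤ) - 1 := by simp [D', deg_qPlace]
  have h1 := ell_sub_index D
  have h2 := ell_sub_index D'
  rw [hc D (by omega)] at h1
  rw [hc D' (by omega)] at h2
  have hlt : ell D' < ell D := by omega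
  obtain ⟨f, hf, hf'⟩ : ∃ f ∈ riemannRochSpace D, f ∉ riemannRochSpace D' := by
    by_contra! hc'
    exact hlt.not_ge (Submodule.finrank_mono hc')
  rw [mem_riemannRochSpace_iff] at hf
  have hf0 : f ≠ 0 := fun e => hf' (e ▸ zero_mem _)
  have hreg : f ∈ regRing E := fun v hv => by
    rw [mem_iff_adicValuation_le_one v, v.adicValuation_le_one_iff]
    simpa [D, Finsupp.single_apply, Ne.symm hv] using hf v
  refine ⟨f, hreg, hf0, ?_⟩
  have hO := (hf (qPlace E)).resolve_left hf0
  simp [D, ord_qPlace] at hO
  refine le_antisymm (le_of_not_gt fun hgt => hf' ?_) hO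
  rw [mem_riemannRochSpace_iff]
  intro v
  refine Or.inr ?_
  by_cases hv : v = qPlace E
  · subst hv; simp [D', ord_qPlace]; omega
  · have := (hf v).resolve_left hf0
    simpa [D, D', Finsupp.single_apply, Ne.symm hv] using this

/-- The gaps at `q = 0`. -/
def gaps : Finset ℕ := by
  classical
  exact (Finset.range (exists_forall_isNongap E).choose).filter fun n => ¬ IsNongap E n

variable {E}

theorem notMem_gaps {n : ℕ} : n ∉ gaps E ↔ IsNongap E n := by
  classical
  refine ⟨fun h => ?_, fun h h' => ?_⟩
  · rcases le_or_gt (exists_forall_isNongap E).choose n with hn | hn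
    · exact (exists_forall_isNongap E).choose_spec n hn
    · simpa [gaps, hn] using h
  · simp [gaps] at h'
    exact h'.2 h

theorem isNongap_zero : IsNongap E 0 := ⟨1, one_mem _, one_ne_zero, by simp⟩

/-- Nongaps form an additive semigroup. -/
theorem IsNongap.add {m n : ℕ} (hm : IsNongap E m) (hn : IsNongap E n) : IsNongap E (m + n) := by
  obtain ⟨f, hf, hf0, hfo⟩ := hm
  obtain ⟨g, hg, hg0, hgo⟩ := hn
  refine ⟨f * g, mul_mem hf hg, mul_ne_zero hf0 hg0, ?_⟩
  rw [MulMemClass.coe_mul, order_mul (by simpa using hf0) (by simpa using hg0), hfo, hgo]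
  push_cast; ring

/-- A nongap is the pole order of a monic regular function. -/
theorem IsNongap.exists_monic {n : ℕ} (h : IsNongap E n) :
    ∃ f : regRing E, ((f : E) : LaurentSeries L).coeff (-(n : ℤ)) = 1 ∧
      (∀ k : ℤ, k < -(n : ℤ) → ((f : E) : LaurentSeries L).coeff k = 0) ∧ (n = 0 → f = 1) := by
  rcases eq_or_ne n 0 with rfl | hn
  · refine ⟨1, ?_, fun k hk => ?_, fun _ => rfl⟩
    · simp
    · simp only [OneMemClass.coe_one]
      rw [HahnSeries.coeff_one, if_neg (by omega)]
  obtain ⟨f, hf, hf0, hfo⟩ := h
  set c : L := (f : LaurentSeries L).coeff (-(n : ℤ))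
  have hc : c ≠ 0 := by
    rw [show c = (f : LaurentSeries L).coeff (f : LaurentSeries L).order by rw [hfo]]
    exact HahnSeries.coeff_order_eq_zero.not.mpr (by simpa using hf0)
  refine ⟨⟨c⁻¹ • f, (regRing E).smul_mem hf c⁻¹⟩, ?_, fun k hk => ?_, fun h => absurd h hn⟩
  · simp only [coe_smul_coeff]
    exact inv_mul_cancel₀ hc
  · simp only [coe_smul_coeff]
    rw [coeff_eq_zero_of_lt_order (hfo ▸ hk), mul_zero]

variable (E)

/-- The monic regular function of pole order `n`. -/
def monicFun (n : {n : ℕ // n ∉ gaps E}) : regRing E :=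
  (notMem_gaps.mp n.2).exists_monic.choose

variable {E}

theorem coeff_monicFun_self (n : {n : ℕ // n ∉ gaps E}) :
    ((monicFun E n : E) : LaurentSeries L).coeff (-(n.1 : ℤ)) = 1 :=
  (notMem_gaps.mp n.2).exists_monic.choose_spec.1

theorem coeff_monicFun_of_lt (n : {n : ℕ // n ∉ gaps E}) {k : ℤ} (hk : k < -(n.1 : ℤ)) :
    ((monicFun E n : E) : LaurentSeries L).coeff k = 0 :=
  (notMem_gaps.mp n.2).exists_monic.choose_spec.2.1 k hk

theorem monicFun_zero (n : {n : ℕ // n ∉ gaps E}) (hn : n.1 = 0) : monicFun E n = 1 :=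
  (notMem_gaps.mp n.2).exists_monic.choose_spec.2.2 hn

/-- Functions with poles of order less than `N` lie in the span of the first basis functions. -/
theorem mem_span_of_coeff (N : ℕ) :
    ∀ f : regRing E, (∀ k : ℤ, k ≤ -(N : ℤ) → ((f : E) : LaurentSeries L).coeff k = 0) →
      f ∈ Submodule.span L (monicFun E '' {i | i.1 < N}) := by
  induction N with
  | zero =>
      intro f hf
      by_contra hne
      have hf0 : (f : E) ≠ 0 := fun e => hne (by
        rw [show f = 0 from Subtype.ext e]; exact zero_mem _)
      have h1 := order_nonpos f.2 hf0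
      exact HahnSeries.coeff_order_eq_zero.not.mpr (by simpa using hf0) (hf _ (by simpa using h1))
  | succ N ih =>
      intro f hf
      have hmono : Submodule.span L (monicFun E '' {i | i.1 < N})
          ≤ Submodule.span L (monicFun E '' {i | i.1 < N + 1}) :=
        Submodule.span_mono (Set.image_mono fun i (hi : i.1 < N) => Nat.lt_succ_of_lt hi)
      set c : L := ((f : E) : LaurentSeries L).coeff (-(N : ℤ))
      by_cases hc : c = 0
      · refine hmono (ih f fun k hk => ?_)
        rcases eq_or_lt_of_le hk with rfl | hlt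
        · exact hc
        · exact hf k (by push_cast; omega)
      have hN : N ∉ gaps E := by
        have hf0 : (f : E) ≠ 0 := fun e => hc (by simp [c, e])
        refine notMem_gaps.mpr ⟨f, f.2, hf0, le_antisymm
          (order_le_of_coeff_ne_zero hc) (le_of_not_gt fun hlt => ?_)⟩
        exact HahnSeries.coeff_order_eq_zero.not.mpr (by simpa using hf0)
          (hf _ (by push_cast; omega))
      have h1 : f - c • monicFun E ⟨N, hN⟩ ∈ Submodule.span L (monicFun E '' {i | i.1 < N}) := by
        refine ih _ fun k hk => ?_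
        show (((f : E) : LaurentSeries L) -
          ((c • (monicFun E ⟨N, hN⟩ : E) : E) : LaurentSeries L)).coeff k = 0
        rw [HahnSeries.coeff_sub, coe_smul_coeff]
        rcases eq_or_lt_of_le hk with rfl | hlt
        · rw [coeff_monicFun_self ⟨N, hN⟩, mul_one, sub_self]
        · rw [hf k (by push_cast; omega), coeff_monicFun_of_lt ⟨N, hN⟩ hlt, mul_zero, sub_zero]
      rw [← sub_add_cancel f (c • monicFun E ⟨N, hN⟩)]
      exact add_mem (hmono h1) (Submodule.smul_mem _ c
        (Submodule.subset_span ⟨⟨N, hN⟩, Nat.lt_succ_self N, rfl⟩))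

theorem linearIndependent_monicFun : LinearIndependent L (monicFun E) := by
  classical
  rw [linearIndependent_iff']
  intro s g hg i hi
  by_contra hne
  obtain ⟨m, hm, hmax⟩ := (s.filter fun i => g i ≠ 0).exists_max_image (fun i => i.1)
    ⟨i, Finset.mem_filter.mpr ⟨hi, hne⟩⟩
  have h : ∑ j ∈ s, g j * ((monicFun E j : E) : LaurentSeries L).coeff (-(m.1 : ℤ)) = 0 := by
    have h0 := congrArg (fun z : regRing E => ((z : E) : LaurentSeries L).coeff (-(m.1 : ℤ))) hg
    simp only [AddSubmonoidClass.coe_finsetSum, HahnSeries.coeff_sum, ZeroMemClass.coe_zero,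
      HahnSeries.coeff_zero] at h0
    rw [← h0]
    exact Finset.sum_congr rfl fun j _ => (coe_smul_coeff _ _ _).symm
  rw [Finset.sum_eq_single m] at h
  · rw [coeff_monicFun_self, mul_one] at h
    exact (Finset.mem_filter.mp hm).2 h
  · intro j hj hjm
    by_cases hgj : g j = 0
    · rw [hgj, zero_mul]
    have := hmax j (Finset.mem_filter.mpr ⟨hj, hgj⟩)
    have hne' : j.1 ≠ m.1 := fun e => hjm (Subtype.ext e)
    rw [coeff_monicFun_of_lt j (by omega), mul_zero]
  · intro hnot
    exact absurd (Finset.mem_filter.mp hm).1 hnot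

theorem span_monicFun : ⊤ ≤ Submodule.span L (Set.range (monicFun E)) := by
  intro f _
  refine Submodule.span_mono (Set.image_subset_range _ _)
    (mem_span_of_coeff ((-((f : E) : LaurentSeries L).order).toNat + 1) f fun k hk => ?_)
  exact coeff_eq_zero_of_lt_order (by push_cast at hk; omega)

variable (E)

/-- The curve basis of the functions regular outside `q = 0`. -/
def curveBasis : CurveBasis L (regRing E) where
  gaps := gaps E
  zero_notMem := notMem_gaps.mpr isNongap_zero
  add_notMem _ _ hm hn := notMem_gaps.mpr ((notMem_gaps.mp hm).add (notMem_gaps.mp hn))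
  basis := Module.Basis.mk linearIndependent_monicFun span_monicFun
  basis_zero := by
    rw [Module.Basis.mk_apply]
    exact monicFun_zero _ rfl
  mul_basis m n hm hn := by
    simp only [Module.Basis.coe_mk]
    have hN : m + n ∉ gaps E := notMem_gaps.mpr ((notMem_gaps.mp hm).add (notMem_gaps.mp hn))
    refine mem_span_of_coeff (m + n) _ fun k hk => ?_
    show (((monicFun E ⟨m, hm⟩ : E) : LaurentSeries L) * ((monicFun E ⟨n, hn⟩ : E) : LaurentSeries L)
      - ((monicFun E ⟨m + n, hN⟩ : E) : LaurentSeries L)).coeff k = 0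
    have hord : ∀ (i : ℕ) (hi : i ∉ gaps E),
        ((monicFun E ⟨i, hi⟩ : E) : LaurentSeries L).order = -(i : ℤ) ∧
          ((monicFun E ⟨i, hi⟩ : E) : LaurentSeries L) ≠ 0 := fun i hi => by
      have h1 := coeff_monicFun_self ⟨i, hi⟩
      have hne : ((monicFun E ⟨i, hi⟩ : E) : LaurentSeries L) ≠ 0 := fun e => by
        rw [e] at h1; simp at h1
      refine ⟨le_antisymm (order_le_of_coeff_ne_zero (by rw [h1]; exact one_ne_zero))
        (le_of_not_gt fun hlt => ?_), hne⟩
      exact HahnSeries.coeff_order_eq_zero.not.mpr hne (coeff_monicFun_of_lt ⟨i, hi⟩ hlt)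
    rw [HahnSeries.coeff_sub]
    obtain ⟨hmo, hm0⟩ := hord m hm
    obtain ⟨hno, hn0⟩ := hord n hn
    rcases eq_or_lt_of_le hk with rfl | hlt
    · have h2 := HahnSeries.coeff_mul_order_add_order
        ((monicFun E ⟨m, hm⟩ : E) : LaurentSeries L) ((monicFun E ⟨n, hn⟩ : E) : LaurentSeries L)
      rw [hmo, hno, HahnSeries.leadingCoeff_eq, HahnSeries.leadingCoeff_eq, hmo, hno,
        coeff_monicFun_self ⟨m, hm⟩, coeff_monicFun_self ⟨n, hn⟩, one_mul] at h2
      rw [show (-((m + n : ℕ) : ℤ)) = -(m : ℤ) + -(n : ℤ) by push_cast; ring, h2,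
        show (-(m : ℤ) + -(n : ℤ)) = -((m + n : ℕ) : ℤ) by push_cast; ring,
        coeff_monicFun_self ⟨m + n, hN⟩, sub_self]
    · rw [coeff_monicFun_of_lt ⟨m + n, hN⟩ hlt,
        coeff_eq_zero_of_lt_order (by rw [order_mul hm0 hn0, hmo, hno]; push_cast at hlt; omega),
        sub_zero]

end Fermat.Agent.MW.Modular
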